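import Mathlib
import Fermat.Prelude.Def_ModularCurve_GenusNumerics

/-!
# The arithmetic identity behind the index of `Γ₀(N)`
-/

namespace FermatAgent.ModCurveGroup

open Finset

/-- The number of cosets of `Γ₀(N)` with a given bottom gcd `d`, `e = N / d`. -/
def cuspBlock (d e : ℕ) : ℕ := e / Nat.gcd d e * Nat.totient (Nat.gcd d e)

lemma sum_divisors_mul_of_mult {h : ℕ → ℕ → ℕ}
    (hh : ∀ a a' b b', Nat.Coprime (a * a') (b * b') → h (a * b) (a' * b') = h a a' * h b b')
    {m n : ℕ} (hmn : m.Coprime n) :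
    ∑ d ∈ (m * n).divisors, h d (m * n / d) =
      (∑ d ∈ m.divisors, h d (m / d)) * ∑ d ∈ n.divisors, h d (n / d) := by
  rw [hmn.divisors_mul, sum_map, sum_mul_sum, ← sum_product']
  refine (sum_attach _ (fun p : ℕ × ℕ => h (p.1 * p.2) (m * n / (p.1 * p.2)))).trans ?_
  refine sum_congr rfl fun p hp => ?_
  rw [mem_product, Nat.mem_divisors, Nat.mem_divisors] at hp
  rw [Nat.mul_div_mul_comm hp.1.1 hp.2.1, hh]
  rw [Nat.mul_div_cancel' hp.1.1, Nat.mul_div_cancel' hp.2.1]
  exact hmn

lemma cuspBlock_mult (a a' b b' : ℕ) (h : Nat.Coprime (a * a') (b * b')) :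
    cuspBlock (a * b) (a' * b') = cuspBlock a a' * cuspBlock b b' := by
  have hab' : Nat.Coprime a b' := h.coprime_mul_right.coprime_mul_left_right
  have ha'b : Nat.Coprime a' b := h.coprime_mul_left.coprime_mul_right_right
  have ha'b' : Nat.Coprime a' b' := h.coprime_mul_left.coprime_mul_left_right
  have hg : Nat.gcd (a * b) (a' * b') = Nat.gcd a a' * Nat.gcd b b' := by
    rw [ha'b'.gcd_mul, Nat.Coprime.gcd_mul_right_cancel a ha'b.symm,
      Nat.Coprime.gcd_mul_left_cancel b hab']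
  simp only [cuspBlock, hg]
  rw [Nat.totient_mul, Nat.mul_div_mul_comm (Nat.gcd_dvd_right _ _) (Nat.gcd_dvd_right _ _)]
  · ring
  · exact h.coprime_mul_right.coprime_mul_right_right.coprime_dvd_left
      (Nat.gcd_dvd_left _ _) |>.coprime_dvd_right (Nat.gcd_dvd_left _ _)

lemma squarefreeQuot_mult (a a' b b' : ℕ) (h : Nat.Coprime (a * a') (b * b')) :
    (if Squarefree (a * b) then a' * b' else 0) =
      (if Squarefree a then a' else 0) * (if Squarefree b then b' else 0) := by
  have hab : Nat.Coprime a b := h.coprime_mul_right.coprime_mul_right_right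
  simp only [Nat.squarefree_mul hab]
  split_ifs <;> simp_all

lemma geom_middle (p : ℕ) (hp : 1 ≤ p) (m : ℕ) :
    ∑ j ∈ range m, p ^ j * (p - 1) + 1 = p ^ m := by
  induction m with
  | zero => simp
  | succ m ih =>
    rw [sum_range_succ, add_right_comm, ih, pow_succ]
    obtain ⟨q, rfl⟩ : ∃ q, p = q + 1 := ⟨p - 1, by omega⟩
    simp only [Nat.add_sub_cancel]
    ring

lemma sum_cuspBlock_prime_pow {p : ℕ} (hp : p.Prime) (k : ℕ) :
    ∑ i ∈ range (k + 2), cuspBlock (p ^ i) (p ^ (k + 1 - i)) = p ^ (k + 1) + p ^ k := by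
  rw [sum_range_succ, sum_range_succ']
  have hmid : ∀ i ∈ range k,
      cuspBlock (p ^ (i + 1)) (p ^ (k + 1 - (i + 1))) = p ^ (k - 1 - i) * (p - 1) := by
    intro i hi
    rw [mem_range] at hi
    obtain ⟨t, ht⟩ : ∃ t, k + 1 - (i + 1) = t + 1 := ⟨k - i - 1, by omega⟩
    rw [cuspBlock, ht, show k - 1 - i = t by omega]
    rcases le_total (i + 1) (t + 1) with h | h
    · rw [Nat.gcd_eq_left (pow_dvd_pow p h), Nat.pow_div h hp.pos,
        Nat.totient_prime_pow_succ hp, ← mul_assoc, ← pow_add]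
      congr 2; omega
    · rw [Nat.gcd_eq_right (pow_dvd_pow p h), Nat.div_self (pow_pos hp.pos _),
        Nat.totient_prime_pow_succ hp, one_mul]
  rw [sum_congr rfl hmid, sum_range_reflect (fun j => p ^ j * (p - 1)) k]
  have h0 : cuspBlock (p ^ 0) (p ^ (k + 1 - 0)) = p ^ (k + 1) := by simp [cuspBlock]
  have h1 : cuspBlock (p ^ (k + 1)) (p ^ (k + 1 - (k + 1))) = 1 := by simp [cuspBlock]
  rw [h0, h1]
  have := geom_middle p hp.one_le k
  omega

/-- The identity `∑_{d ∣ N} (N/d)/g · φ(g) = ψ(N)` with `g = gcd(d, N/d)`. -/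
theorem sum_cuspBlock_eq_dedekindPsi (N : ℕ) :
    ∑ d ∈ N.divisors, cuspBlock d (N / d) = ModularCurve.dedekindPsi N := by
  rw [ModularCurve.dedekindPsi, sum_filter]
  induction N using Nat.recOnPosPrimePosCoprime with
  | zero => simp
  | one => simp [cuspBlock]
  | prime_pow p n hp hn =>
    obtain ⟨k, rfl⟩ : ∃ k, n = k + 1 := ⟨n - 1, by omega⟩
    rw [Nat.divisors_prime_pow hp, sum_map, sum_map]
    simp only [Function.Embedding.coeFn_mk]
    rw [sum_congr rfl (fun i hi => by rw [Nat.pow_div (Nat.lt_succ_iff.mp (mem_range.mp hi)) hp.pos]),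
      sum_cuspBlock_prime_pow hp, sum_range_succ', sum_range_succ', sum_eq_zero (s := range k)]
    · simp [hp.squarefree, pow_succ', Nat.mul_div_cancel_left _ hp.pos]
      ring
    · intro i _
      rw [if_neg]
      rw [Nat.squarefree_pow_iff hp.ne_one (by omega)]
      omega
  | coprime a b _ _ hab iha ihb =>
    rw [sum_divisors_mul_of_mult cuspBlock_mult hab, iha, ihb,
      sum_divisors_mul_of_mult (h := fun d e => if Squarefree d then e else 0)
        squarefreeQuot_mult hab]

end FermatAgent.ModCurveGroup
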