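import Fermat.Agent.ModCurve.Group.Dessin
import Fermat.Agent.ModCurve.Group.PsiIdentity

/-!
# Counting on the coset space of `Γ₀(N)`

The cosets are parametrised by pairs `(d, a)` with `d ∣ N`, `a ∈ ℤ/(N/d)` with image a unit
modulo `g = gcd(d, N/d)`.
-/

namespace FermatAgent.ModCurveGroup

open ModularGroup CongruenceSubgroup Finset
open scoped MatrixGroups

variable (N : ℕ) [NeZero N]

/-- `gcd(d, N/d)`. -/
def blockGcd (d : ℕ) : ℕ := Nat.gcd d (N / d)

omit [NeZero N] in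
lemma blockGcd_dvd (d : ℕ) : blockGcd N d ∣ N / d := Nat.gcd_dvd_right _ _

instance (d : N.divisors) : NeZero (N / (d : ℕ)) :=
  ⟨(Nat.div_pos (Nat.le_of_dvd (Nat.pos_of_neZero N) (Nat.mem_divisors.mp d.2).1)
    (Nat.pos_of_mem_divisors d.2)).ne'⟩

instance (d : N.divisors) : NeZero (blockGcd N d) :=
  ⟨(Nat.gcd_pos_of_pos_right _ (Nat.pos_of_neZero _)).ne'⟩

/-- Reduction `ℤ/(N/d) → ℤ/g`. -/
def blockRed (d : ℕ) : ZMod (N / d) →+* ZMod (blockGcd N d) :=
  ZMod.castHom (blockGcd_dvd N d) _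

/-- Labels for the cosets of `Γ₀(N)`. -/
abbrev CosetLabel : Type := Σ d : N.divisors, {a : ZMod (N / (d : ℕ)) // IsUnit (blockRed N d a)}

variable {N}

omit [NeZero N] in
/-- Two cosets agree iff the first columns are proportional modulo `N`. -/
lemma edge_eq_iff (g h : SL(2, ℤ)) :
    (g : Edge (Gamma0 N)) = (h : Edge (Gamma0 N)) ↔
      (g 0 0 : ZMod N) * h 1 0 = (h 0 0 : ZMod N) * g 1 0 := by
  rw [QuotientGroup.eq, Gamma0_mem]
  have : ((g⁻¹ * h : SL(2, ℤ)) 1 0 : ℤ) = g 0 0 * h 1 0 - h 0 0 * g 1 0 := by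
    simp [Matrix.mul_apply, Fin.sum_univ_two, Matrix.SpecialLinearGroup.SL2_inv_expl]
    ring
  rw [this, Int.cast_sub, Int.cast_mul, Int.cast_mul, sub_eq_zero]

omit [NeZero N] in
lemma isCoprime_col (h : SL(2, ℤ)) : IsCoprime (h 0 0) (h 1 0) :=
  ⟨h 1 1, -h 0 1, by
    have := h.det_coe
    rw [Matrix.det_fin_two] at this
    linarith⟩

lemma exists_lift_column (l : CosetLabel N) : ∃ h : SL(2, ℤ), h 1 0 = (l.1 : ℕ) ∧
    (h 0 0 : ZMod (N / (l.1 : ℕ))) = l.2.1 := by
  obtain ⟨d, a, ha⟩ := l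
  have hd0 : (d : ℕ) ≠ 0 := (Nat.pos_of_mem_divisors d.2).ne'
  -- the product of the primes of `d` not dividing `a`
  set k := ∏ p ∈ (d : ℕ).primeFactors.filter (fun p => ¬ p ∣ a.val), p with hk
  have hcop : Nat.Coprime (a.val + N / (d : ℕ) * k) d := by
    refine Nat.coprime_of_dvd fun p hp hpa hpd => ?_
    have hpf : p ∈ (d : ℕ).primeFactors := Nat.mem_primeFactors.mpr ⟨hp, hpd, hd0⟩
    by_cases h : p ∣ a.val
    · have h1 : p ∣ N / (d : ℕ) * k := (Nat.dvd_add_right h).mp hpa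
      rcases hp.dvd_mul.mp h1 with h2 | h2
      · have hg : p ∣ blockGcd N d := Nat.dvd_gcd hpd h2
        have hu : IsUnit ((a.val : ℕ) : ZMod (blockGcd N d)) := by
          rw [← map_natCast (blockRed N d), ZMod.natCast_zmod_val]; exact ha
        rw [ZMod.isUnit_iff_coprime] at hu
        exact Nat.not_coprime_of_dvd_of_dvd hp.one_lt h hg hu
      · rw [hk, hp.prime.dvd_finsetProd_iff] at h2
        obtain ⟨q, hq, hpq⟩ := h2
        rw [mem_filter, Nat.mem_primeFactors] at hq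
        exact hq.2 ((Nat.prime_dvd_prime_iff_eq hp hq.1.1).mp hpq ▸ h)
    · have h2 : p ∣ k := Finset.dvd_prod_of_mem _ (mem_filter.mpr ⟨hpf, h⟩)
      exact h ((Nat.dvd_add_left (h2.mul_left _)).mp hpa)
  obtain ⟨h, h0, h1⟩ := (Nat.isCoprime_iff_coprime.mpr hcop).exists_SL2_col 0
  refine ⟨h, h1, ?_⟩
  rw [h0, Int.cast_natCast, Nat.cast_add, Nat.cast_mul, ZMod.natCast_self, zero_mul, add_zero,
    ZMod.natCast_zmod_val]

/-- A representative matrix of a label. -/
noncomputable def labelMatrix (l : CosetLabel N) : SL(2, ℤ) := (exists_lift_column l).choose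

lemma labelMatrix_one_zero (l : CosetLabel N) : labelMatrix l 1 0 = (l.1 : ℕ) :=
  (exists_lift_column l).choose_spec.1

lemma labelMatrix_zero_zero (l : CosetLabel N) :
    (labelMatrix l 0 0 : ZMod (N / (l.1 : ℕ))) = l.2.1 :=
  (exists_lift_column l).choose_spec.2

/-- The coset of a label. -/
noncomputable def labelEdge (l : CosetLabel N) : Edge (Gamma0 N) := (labelMatrix l : SL(2, ℤ))

omit [NeZero N] in
lemma natCast_mul_eq_iff {d : ℕ} (hd : d ∣ N) (hd0 : d ≠ 0) (x y : ℤ) :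
    (d : ZMod N) * x = (d : ZMod N) * y ↔ (x : ZMod (N / d)) = y := by
  have h1 : ((d : ZMod N) * x = (d : ZMod N) * y) ↔ (((d * x : ℤ)) : ZMod N) = ((d * y : ℤ)) := by
    simp
  rw [h1, ZMod.intCast_eq_intCast_iff_dvd_sub, ZMod.intCast_eq_intCast_iff_dvd_sub, ← mul_sub]
  conv_lhs => rw [← Nat.mul_div_cancel' hd, Nat.cast_mul]
  exact Int.mul_dvd_mul_iff_left (by exact_mod_cast hd0)

lemma labelEdge_injective : Function.Injective (labelEdge (N := N)) := by
  intro l m h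
  rw [labelEdge, labelEdge, edge_eq_iff, labelMatrix_one_zero, labelMatrix_one_zero,
    Int.cast_natCast, Int.cast_natCast] at h
  have key : ∀ l m : CosetLabel N, (labelMatrix l 0 0 : ZMod N) * (m.1 : ℕ) =
      (labelMatrix m 0 0 : ZMod N) * (l.1 : ℕ) → (l.1 : ℕ) ∣ (m.1 : ℕ) := by
    intro l m h
    have hd := (Nat.mem_divisors.mp l.1.2).1
    have h' : (((labelMatrix l 0 0 * (m.1 : ℕ) : ℤ)) : ZMod N) =
        ((labelMatrix m 0 0 * (l.1 : ℕ) : ℤ)) := by simpa using h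
    rw [ZMod.intCast_eq_intCast_iff_dvd_sub] at h'
    have h2 : ((l.1 : ℕ) : ℤ) ∣ labelMatrix l 0 0 * (m.1 : ℕ) :=
      (dvd_sub_right (dvd_mul_left _ _)).mp ((Int.natCast_dvd_natCast.mpr hd).trans h')
    have hc : IsCoprime ((l.1 : ℕ) : ℤ) (labelMatrix l 0 0) := by
      rw [← labelMatrix_one_zero]; exact (isCoprime_col _).symm
    exact_mod_cast hc.dvd_of_dvd_mul_left h2
  obtain ⟨⟨d, hd⟩, a, ha⟩ := l
  obtain ⟨⟨d', hd'⟩, a', ha'⟩ := m
  obtain rfl : d = d' := Nat.dvd_antisymm (key _ _ h) (key _ _ h.symm)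
  rw [mul_comm, mul_comm (labelMatrix ⟨⟨d, hd'⟩, ⟨a', ha'⟩⟩ 0 0 : ZMod N)] at h
  rw [natCast_mul_eq_iff (Nat.mem_divisors.mp hd).1 (Nat.pos_of_mem_divisors hd).ne'] at h
  have h1 := labelMatrix_zero_zero (⟨⟨d, hd⟩, ⟨a, ha⟩⟩ : CosetLabel N)
  have h2 := labelMatrix_zero_zero (⟨⟨d, hd'⟩, ⟨a', ha'⟩⟩ : CosetLabel N)
  simp only at h1 h2
  obtain rfl : a = a' := by rw [← h1, ← h2, h]
  rfl

lemma labelEdge_surjective : Function.Surjective (labelEdge (N := N)) := by
  intro x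
  induction x using QuotientGroup.induction_on with
  | _ h =>
  set d := Int.gcd (h 1 0) N with hd
  have hdN : d ∣ N := Int.natCast_dvd_natCast.mp (Int.gcd_dvd_right _ _)
  have hdpos : 0 < d := Int.gcd_pos_of_ne_zero_right _ (by exact_mod_cast NeZero.ne N)
  obtain ⟨u, hu⟩ : (d : ℤ) ∣ h 1 0 := Int.gcd_dvd_left _ _
  have hue : IsCoprime u ((N / d : ℕ) : ℤ) := by
    rw [Int.isCoprime_iff_gcd_eq_one]
    have h2 : Int.gcd ((d : ℤ) * u) ((d : ℤ) * (N / d : ℕ)) = d := by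
      rw [← hu, ← Nat.cast_mul, Nat.mul_div_cancel' hdN]
    rw [Int.gcd_mul_left, Int.natAbs_natCast] at h2
    exact Nat.eq_of_mul_eq_mul_left hdpos (h2.trans (mul_one d).symm)
  obtain ⟨v, w, hvw⟩ := hue
  set d' : N.divisors := ⟨d, Nat.mem_divisors.mpr ⟨hdN, NeZero.ne N⟩⟩
  have ha : IsUnit (blockRed N d ((h 0 0 * v : ℤ) : ZMod (N / d))) := by
    rw [map_intCast, ZMod.coe_int_isUnit_iff_isCoprime]
    have hg1 : ((blockGcd N d : ℕ) : ℤ) ∣ (d : ℤ) := by exact_mod_cast Nat.gcd_dvd_left _ _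
    have hg2 : ((blockGcd N d : ℕ) : ℤ) ∣ ((N / d : ℕ) : ℤ) := by
      exact_mod_cast blockGcd_dvd N d
    refine IsCoprime.mul_right ?_ ?_
    · exact ((isCoprime_col h).symm.of_isCoprime_of_dvd_left (hg1.trans ⟨u, hu⟩))
    · exact IsCoprime.of_isCoprime_of_dvd_left
        (show IsCoprime ((N / d : ℕ) : ℤ) v from ⟨w, u, by linarith⟩) hg2
  refine ⟨⟨d', _, ha⟩, ?_⟩
  rw [labelEdge, edge_eq_iff, labelMatrix_one_zero]
  have hl := labelMatrix_zero_zero (⟨d', _, ha⟩ : CosetLabel N)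
  set A := labelMatrix (⟨d', _, ha⟩ : CosetLabel N) 0 0 with hA
  rw [hu]
  change (A : ZMod N) * (((d : ℤ) * u : ℤ) : ZMod N) = (h 0 0 : ZMod N) * (((d : ℕ) : ℤ) : ZMod N)
  rw [Int.cast_mul, Int.cast_natCast, mul_left_comm, mul_comm (h 0 0 : ZMod N), ← Int.cast_mul,
    natCast_mul_eq_iff hdN hdpos.ne', Int.cast_mul]
  change (A : ZMod (N / d)) = ((h 0 0 * v : ℤ) : ZMod (N / d)) at hl
  rw [hl, ← Int.cast_mul, mul_assoc, ZMod.intCast_eq_intCast_iff_dvd_sub]
  exact ⟨h 0 0 * w, by linear_combination (-(h 0 0)) * hvw⟩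

/-- The cosets of `Γ₀(N)` are in bijection with the labels. -/
noncomputable def labelEquiv : CosetLabel N ≃ Edge (Gamma0 N) :=
  Equiv.ofBijective labelEdge ⟨labelEdge_injective, labelEdge_surjective⟩

/-- Translation of a label. -/
noncomputable def labelShift (l : CosetLabel N) : CosetLabel N :=
  ⟨l.1, l.2.1 + ((l.1 : ℕ) : ZMod (N / (l.1 : ℕ))), by
    have : ((l.1 : ℕ) : ZMod (blockGcd N l.1)) = 0 :=
      (ZMod.natCast_eq_zero_iff _ _).mpr (Nat.gcd_dvd_left _ _)
    rw [map_add, map_natCast, this, add_zero]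
    exact l.2.2⟩

lemma T_smul_labelEdge (l : CosetLabel N) :
    (T : SL(2, ℤ)) • labelEdge l = labelEdge (labelShift l) := by
  rw [labelEdge, MulAction.Quotient.smul_coe, smul_eq_mul, labelEdge, edge_eq_iff]
  have e00 : (T * labelMatrix l) 0 0 = labelMatrix l 0 0 + (l.1 : ℕ) := by
    simp [Matrix.mul_apply, Fin.sum_univ_two, coe_T, labelMatrix_one_zero]
  have e10 : (T * labelMatrix l) 1 0 = (l.1 : ℕ) := by
    simp [labelMatrix_one_zero]
  rw [e00, e10, labelMatrix_one_zero]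
  have hl := labelMatrix_zero_zero (labelShift l)
  change _ * (((l.1 : ℕ) : ℤ) : ZMod N) = _
  rw [Int.cast_natCast, mul_comm, mul_comm (labelMatrix (labelShift l) 0 0 : ZMod N),
    natCast_mul_eq_iff (Nat.mem_divisors.mp l.1.2).1 (Nat.pos_of_mem_divisors l.1.2).ne']
  rw [Int.cast_add, Int.cast_natCast, labelMatrix_zero_zero]
  exact hl.symm

lemma T_pow_smul_labelEdge (n : ℕ) (l : CosetLabel N) :
    (T : SL(2, ℤ)) ^ n • labelEdge l = labelEdge (labelShift^[n] l) := by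
  induction n with
  | zero => simp
  | succ n ih => rw [pow_succ', mul_smul, ih, T_smul_labelEdge, Function.iterate_succ_apply']

omit [NeZero N] in
lemma iterate_labelShift (n : ℕ) (l : CosetLabel N) :
    ∃ h, labelShift^[n] l =
      ⟨l.1, l.2.1 + (n : ZMod (N / (l.1 : ℕ))) * ((l.1 : ℕ) : ZMod (N / (l.1 : ℕ))), h⟩ := by
  induction n with
  | zero => exact ⟨by simpa using l.2.2, by simp⟩
  | succ n ih =>
    obtain ⟨h, e⟩ := ih
    have key : l.2.1 + ((n + 1 : ℕ) : ZMod (N / (l.1 : ℕ))) * ((l.1 : ℕ) : ZMod (N / (l.1 : ℕ))) =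
        l.2.1 + (n : ZMod (N / (l.1 : ℕ))) * ((l.1 : ℕ) : ZMod (N / (l.1 : ℕ))) +
          ((l.1 : ℕ) : ZMod (N / (l.1 : ℕ))) := by push_cast; ring
    rw [Function.iterate_succ_apply', e]
    exact ⟨key ▸ (labelShift ⟨l.1, _, h⟩).2.2, Sigma.ext rfl (heq_of_eq (Subtype.ext key.symm))⟩

/-- The cusp of a label. -/
noncomputable def cuspLabel (x : Edge (Gamma0 N)) :
    Σ d : N.divisors, (ZMod (blockGcd N d))ˣ :=
  ⟨(labelEquiv.symm x).1, (labelEquiv.symm x).2.2.unit⟩

lemma cuspLabel_labelEdge (l : CosetLabel N) : cuspLabel (labelEdge l) = ⟨l.1, l.2.2.unit⟩ := by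
  have : labelEquiv.symm (labelEdge l) = l := Equiv.symm_apply_apply labelEquiv l
  exact congrArg (fun l : CosetLabel N =>
    (⟨l.1, l.2.2.unit⟩ : Σ d : N.divisors, (ZMod (blockGcd N d))ˣ)) this

lemma cuspLabel_T_smul (x : Edge (Gamma0 N)) :
    cuspLabel ((T : SL(2, ℤ)) • x) = cuspLabel x := by
  obtain ⟨l, rfl⟩ := labelEdge_surjective x
  rw [T_smul_labelEdge, cuspLabel_labelEdge, cuspLabel_labelEdge]
  refine Sigma.ext rfl (heq_of_eq ?_)
  have : ((l.1 : ℕ) : ZMod (blockGcd N l.1)) = 0 :=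
    (ZMod.natCast_eq_zero_iff _ _).mpr (Nat.gcd_dvd_left _ _)
  ext
  show blockRed N (l.1 : ℕ) (l.2.1 + ((l.1 : ℕ) : ZMod (N / (l.1 : ℕ)))) =
    blockRed N (l.1 : ℕ) l.2.1
  rw [map_add, map_natCast, this, add_zero]

lemma cuspLabel_eq_iff (x y : Edge (Gamma0 N)) :
    cuspLabel x = cuspLabel y ↔ (permT (Gamma0 N)).SameCycle x y := by
  constructor
  · obtain ⟨⟨d, a, ha⟩, rfl⟩ := labelEdge_surjective x
    obtain ⟨⟨d', a', ha'⟩, rfl⟩ := labelEdge_surjective y
    intro h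
    rw [cuspLabel_labelEdge, cuspLabel_labelEdge] at h
    obtain ⟨hdd, hu⟩ := Sigma.mk.inj_iff.mp h
    simp only at hdd
    subst hdd
    have hred : blockRed N d a = blockRed N d a' := by
      simpa [Units.ext_iff] using eq_of_heq hu
    -- `a' - a` is a multiple of `d`
    obtain ⟨t, ht⟩ : ((blockGcd N d : ℕ) : ℤ) ∣ (a'.val : ℤ) - a.val := by
      rw [← ZMod.intCast_eq_intCast_iff_dvd_sub, Int.cast_natCast, Int.cast_natCast,
        ← map_natCast (blockRed N d), ← map_natCast (blockRed N d), ZMod.natCast_zmod_val,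
        ZMod.natCast_zmod_val, hred]
    have hbez := Nat.gcd_eq_gcd_ab (d : ℕ) (N / (d : ℕ))
    set n : ℕ := (((Nat.gcdA (d : ℕ) (N / (d : ℕ)) * t : ℤ)) : ZMod (N / (d : ℕ))).val with hn
    refine ⟨n, ?_⟩
    rw [zpow_natCast, Equiv.Perm.coe_pow,
      show ⇑(permT (Gamma0 N)) = ((T : SL(2, ℤ)) • ·) from rfl, smul_iterate]
    simp only [T_pow_smul_labelEdge]
    obtain ⟨hh, e⟩ := iterate_labelShift n (⟨d, a, ha⟩ : CosetLabel N)
    rw [e]
    congr 1
    simp only [Sigma.mk.inj_iff, true_and, heq_eq_eq, Subtype.mk.injEq]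
    rw [hn, ZMod.natCast_zmod_val]
    have : ((((Nat.gcdA (d : ℕ) (N / (d : ℕ)) * t) * (d : ℕ)) : ℤ) : ZMod (N / (d : ℕ))) =
        (((a'.val : ℤ) - a.val : ℤ) : ZMod (N / (d : ℕ))) := by
      rw [ZMod.intCast_eq_intCast_iff_dvd_sub, ht]
      exact ⟨Nat.gcdB (d : ℕ) (N / (d : ℕ)) * t, by
        simp only [blockGcd] at *; linear_combination t * hbez⟩
    push_cast at this
    rw [ZMod.natCast_zmod_val, ZMod.natCast_zmod_val] at this
    push_cast
    rw [this]
    ring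
  · intro h
    exact invariant_of_cycleClassMk_eq (σ := permT (Gamma0 N))
      (fun x => cuspLabel_T_smul x) (cycleClassMk_eq_iff.mpr h)

omit [NeZero N] in
lemma blockRed_surjective (d : ℕ) : Function.Surjective (blockRed N d) :=
  ZMod.ringHom_surjective _

/-- The cusps of `Γ₀(N)`. -/
noncomputable def cuspEquivLabel :
    CycleClass (permT (Gamma0 N)) ≃ Σ d : N.divisors, (ZMod (blockGcd N d))ˣ :=
  Equiv.ofBijective (Quotient.lift cuspLabel fun x y h => (cuspLabel_eq_iff x y).mpr h) (by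
    constructor
    · intro a b
      induction a using Quotient.inductionOn
      induction b using Quotient.inductionOn
      intro h
      exact Quotient.sound ((cuspLabel_eq_iff _ _).mp h)
    · rintro ⟨d, u⟩
      obtain ⟨a, ha⟩ := blockRed_surjective (N := N) d u
      refine ⟨cycleClassMk _ (labelEdge ⟨d, a, ha ▸ u.isUnit⟩), ?_⟩
      show cuspLabel _ = _
      rw [cuspLabel_labelEdge]
      refine Sigma.ext rfl (heq_of_eq ?_)
      ext
      simpa using ha)

/-- The number of `T`-orbits on the cosets is the number of cusps. -/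
theorem card_cycleClass_T : Nat.card (CycleClass (permT (Gamma0 N))) = ModularCurve.cuspCount N := by
  rw [Nat.card_congr cuspEquivLabel, Nat.card_sigma, ModularCurve.cuspCount,
    Finset.sum_coe_sort N.divisors (fun d => Nat.card (ZMod (blockGcd N d))ˣ)]
  refine Finset.sum_congr rfl fun d hd => ?_
  have : NeZero (blockGcd N d) :=
    ⟨(Nat.gcd_pos_of_pos_left _ (Nat.pos_of_mem_divisors hd)).ne'⟩
  rw [Nat.card_eq_fintype_card, ZMod.card_units_eq_totient, blockGcd]

lemma card_labelBlock (d : N.divisors) :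
    Nat.card {a : ZMod (N / (d : ℕ)) // IsUnit (blockRed N d a)} =
      cuspBlock d (N / (d : ℕ)) := by
  classical
  set f := blockRed N d
  have hfib : ∀ y, #{a | f a = y} = #{a | f a = 0} := fun y =>
    AddMonoidHom.card_fiber_eq_of_mem_range f.toAddMonoidHom (blockRed_surjective _ y)
      (blockRed_surjective _ 0)
  have htot : Fintype.card (ZMod (N / (d : ℕ))) =
      Fintype.card (ZMod (blockGcd N d)) * #{a | f a = 0} := by
    rw [← card_univ, card_eq_sum_card_fiberwise (f := f) (t := univ) (fun x _ => mem_univ _)]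
    simp [hfib]
  rw [ZMod.card, ZMod.card] at htot
  rw [Nat.card_eq_fintype_card, Fintype.card_subtype,
    card_eq_sum_card_fiberwise (f := f) (t := univ.filter IsUnit)
      (fun x hx => by simpa using hx)]
  have hstep : ∀ y ∈ univ.filter (fun y : ZMod (blockGcd N d) => IsUnit y),
      #((univ.filter fun a => IsUnit (f a)).filter fun a => f a = y) = #{a | f a = 0} := by
    intro y hy
    rw [← hfib y]
    congr 1
    ext a
    simp only [mem_filter, mem_univ, true_and, and_iff_right_iff_imp]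
    rintro rfl
    simpa using hy
  rw [sum_congr rfl hstep, sum_const, smul_eq_mul, cuspBlock]
  have hunits : #(univ.filter fun y : ZMod (blockGcd N d) => IsUnit y) =
      Nat.totient (blockGcd N d) := by
    rw [← ZMod.card_units_eq_totient, ← Fintype.card_subtype]
    exact Fintype.card_congr
      { toFun := fun y => y.2.unit
        invFun := fun u => ⟨u, u.isUnit⟩
        left_inv := fun y => Subtype.ext y.2.unit_spec
        right_inv := fun u => Units.ext u.isUnit.unit_spec }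
  have hk : #{a | f a = 0} = N / (d : ℕ) / blockGcd N d :=
    (Nat.div_eq_of_eq_mul_right (Nat.pos_of_neZero _) htot).symm
  rw [hunits, hk, mul_comm]
  rfl

/-- The index of `Γ₀(N)` is `ψ(N)`. -/
theorem card_edge_gamma0 : Nat.card (Edge (Gamma0 N)) = ModularCurve.dedekindPsi N := by
  rw [← Nat.card_congr labelEquiv, Nat.card_sigma, ← sum_cuspBlock_eq_dedekindPsi,
    ← Finset.sum_coe_sort N.divisors (fun d => cuspBlock d (N / d))]
  exact Finset.sum_congr rfl fun d _ => card_labelBlock d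

/-- The index of `Γ₀(N)` is `ψ(N)`. -/
theorem index_gamma0 : (Gamma0 N).index = ModularCurve.dedekindPsi N := by
  rw [Subgroup.index, card_edge_gamma0]

omit [NeZero N] in
lemma S_smul_eq_self_iff (h : SL(2, ℤ)) :
    (S : SL(2, ℤ)) • (h : Edge (Gamma0 N)) = h ↔
      (h 0 0 : ZMod N) ^ 2 + (h 1 0 : ZMod N) ^ 2 = 0 := by
  rw [MulAction.Quotient.smul_coe, smul_eq_mul, edge_eq_iff]
  simp [Matrix.mul_apply, Fin.sum_univ_two, coe_S]
  constructor <;> intro e <;> linear_combination -e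

omit [NeZero N] in
lemma R₃_smul_eq_self_iff (h : SL(2, ℤ)) :
    R₃ • (h : Edge (Gamma0 N)) = h ↔
      (h 0 0 : ZMod N) ^ 2 - (h 0 0 : ZMod N) * h 1 0 + (h 1 0 : ZMod N) ^ 2 = 0 := by
  rw [MulAction.Quotient.smul_coe, smul_eq_mul, edge_eq_iff]
  simp [Matrix.mul_apply, Fin.sum_univ_two, coe_R₃]
  constructor <;> intro e <;> linear_combination -e

/-- The coset with first column `(x, 1)`. -/
def affineEdge (x : ZMod N) : Edge (Gamma0 N) := ((T ^ (x.val : ℤ) * S : SL(2, ℤ)) : Edge (Gamma0 N))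

lemma affineMatrix_apply (n : ℤ) :
    ((T ^ n * S : SL(2, ℤ)) 0 0 = n) ∧ ((T ^ n * S : SL(2, ℤ)) 1 0 = 1) := by
  constructor <;> simp [coe_T_zpow, coe_S, Matrix.mul_apply, Fin.sum_univ_two]

lemma affineEdge_injective : Function.Injective (affineEdge (N := N)) := by
  intro x y h
  rw [affineEdge, affineEdge, edge_eq_iff, (affineMatrix_apply _).1, (affineMatrix_apply _).1,
    (affineMatrix_apply _).2, (affineMatrix_apply _).2] at h
  simpa using h

lemma isUnit_col_of_fixed {h : SL(2, ℤ)}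
    (hq : ∃ r : ZMod N, (h 0 0 : ZMod N) ^ 2 = (h 1 0 : ZMod N) * r) :
    IsUnit (h 1 0 : ZMod N) := by
  obtain ⟨r, hr⟩ := hq
  obtain ⟨s, t, hst⟩ := (isCoprime_col h).pow (m := 2) (n := 1)
  have h2 : (s : ZMod N) * (h 0 0 : ZMod N) ^ 2 + (t : ZMod N) * (h 1 0 : ZMod N) ^ 1 = 1 := by
    exact_mod_cast congrArg (Int.cast : ℤ → ZMod N) hst
  exact IsUnit.of_mul_eq_one (s * r + t) (by rw [hr] at h2; linear_combination h2)

lemma edge_eq_affineEdge {h : SL(2, ℤ)} (hu : IsUnit (h 1 0 : ZMod N)) :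
    (h : Edge (Gamma0 N)) = affineEdge ((h 0 0 : ZMod N) * ((hu.unit⁻¹ : (ZMod N)ˣ) : ZMod N)) := by
  rw [affineEdge, edge_eq_iff, (affineMatrix_apply _).1, (affineMatrix_apply _).2]
  simp [mul_assoc, hu.val_inv_mul]

/-- The number of fixed points of `S` on the cosets is `ν₂`. -/
theorem card_fixed_S :
    Nat.card {x : Edge (Gamma0 N) // permS (Gamma0 N) x = x} = ModularCurve.nuTwo N := by
  refine (Nat.card_congr (Equiv.ofBijective (fun y : {y : ZMod N // y ^ 2 + 1 = 0} =>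
    (⟨affineEdge y.1, ?_⟩ : {x : Edge (Gamma0 N) // permS (Gamma0 N) x = x})) ⟨?_, ?_⟩)).symm
  · rw [permS_apply, affineEdge, S_smul_eq_self_iff, (affineMatrix_apply _).1,
      (affineMatrix_apply _).2]
    simpa using y.2
  · intro y z h
    exact Subtype.ext (affineEdge_injective (congrArg Subtype.val h))
  · rintro ⟨x, hx⟩
    induction x using QuotientGroup.induction_on with
    | _ h =>
    rw [permS_apply, S_smul_eq_self_iff] at hx
    have hu : IsUnit (h 1 0 : ZMod N) :=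
      isUnit_col_of_fixed ⟨-(h 1 0 : ZMod N), by linear_combination hx⟩
    refine ⟨⟨(h 0 0 : ZMod N) * ↑hu.unit⁻¹, ?_⟩, Subtype.ext (edge_eq_affineEdge hu).symm⟩
    have h1 : (↑hu.unit⁻¹ : ZMod N) * (h 1 0 : ZMod N) = 1 := hu.val_inv_mul
    linear_combination (↑hu.unit⁻¹ : ZMod N) ^ 2 * hx -
      ((↑hu.unit⁻¹ : ZMod N) * (h 1 0 : ZMod N) + 1) * h1

/-- The number of fixed points of `R₃` on the cosets is `ν₃`. -/
theorem card_fixed_R₃ :
    Nat.card {x : Edge (Gamma0 N) // permR (Gamma0 N) x = x} = ModularCurve.nuThree N := by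
  refine (Nat.card_congr (Equiv.ofBijective (fun y : {y : ZMod N // y ^ 2 + y + 1 = 0} =>
    (⟨affineEdge (-y.1), ?_⟩ : {x : Edge (Gamma0 N) // permR (Gamma0 N) x = x})) ⟨?_, ?_⟩)).symm
  · rw [permR_apply, affineEdge, R₃_smul_eq_self_iff, (affineMatrix_apply _).1,
      (affineMatrix_apply _).2]
    simp only [Int.cast_natCast, ZMod.natCast_zmod_val, Int.cast_one]
    linear_combination y.2
  · intro y z h
    exact Subtype.ext (neg_injective (affineEdge_injective (congrArg Subtype.val h)))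
  · rintro ⟨x, hx⟩
    induction x using QuotientGroup.induction_on with
    | _ h =>
    rw [permR_apply, R₃_smul_eq_self_iff] at hx
    have hu : IsUnit (h 1 0 : ZMod N) :=
      isUnit_col_of_fixed ⟨(h 0 0 : ZMod N) - (h 1 0 : ZMod N), by linear_combination hx⟩
    refine ⟨⟨-((h 0 0 : ZMod N) * ↑hu.unit⁻¹), ?_⟩,
      Subtype.ext ((edge_eq_affineEdge hu).trans (congrArg affineEdge (neg_neg _).symm)).symm⟩
    have h1 : (↑hu.unit⁻¹ : ZMod N) * (h 1 0 : ZMod N) = 1 := hu.val_inv_mul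
    linear_combination (↑hu.unit⁻¹ : ZMod N) ^ 2 * hx +
      ((h 0 0 : ZMod N) * ↑hu.unit⁻¹ - (↑hu.unit⁻¹ : ZMod N) * (h 1 0 : ZMod N) - 1) * h1

/-- The number of fixed points of `S * T` on the cosets is `ν₃`. -/
theorem card_fixed_S_mul_T :
    Nat.card {x : Edge (Gamma0 N) // ((S * T : SL(2, ℤ))) • x = x} = ModularCurve.nuThree N := by
  rw [← card_fixed_R₃]
  refine Nat.card_congr (Equiv.subtypeEquiv (MulAction.toPerm (S : SL(2, ℤ))) fun x => ?_)
  rw [mul_smul, permR_apply, MulAction.toPerm_apply, R₃_smul_eq, S_smul_S_smul]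
  constructor <;> intro h
  · conv_rhs => rw [← h, S_smul_S_smul]
  · rw [h, S_smul_S_smul]

end FermatAgent.ModCurveGroup
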