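import Fermat.Agent.ModCurve.Group.Rank
import Fermat.Agent.ModCurve.Group.Counts
import Fermat.Prelude.Def_ModularCurve_PeriodMap

/-!
# The homology lattice of `X₀(N)`

`H1X0 N` is free of rank `2 * genusX0 N`, `(genusX0 N : ℚ) = genusFormula N`, and homomorphisms
`Γ₀(N) → A` killing `±1`, parabolic and elliptic elements are `A ^ (2g)`.
-/

namespace FermatAgent.ModCurveGroup

open ModularGroup CongruenceSubgroup Module
open scoped MatrixGroups

variable (N : ℕ) [NeZero N]

/-- The homology lattice of `X₀(N)`. -/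
abbrev H1X0 : Type := HomologyLattice (Gamma0 N)

/-- The genus of `X₀(N)` as a natural number. -/
noncomputable def genusX0 : ℕ := finrank ℤ (H1X0 N) / 2

theorem finrank_H1X0 : finrank ℤ (H1X0 N) = 2 * genusX0 N :=
  (Nat.two_mul_div_two_of_even (even_finrank_homologyLattice _)).symm

theorem genusX0_eq_genusFormula : (genusX0 N : ℚ) = ModularCurve.genusFormula N := by
  have h1 := finrank_homologyLattice (Gamma0 N)
  have h2 := two_mul_card_cycleClass (σ := permS (Gamma0 N)) (S_smul_S_smul _)
  have h3 := three_mul_card_cycleClass (σ := permR (Gamma0 N)) (R₃_smul_cube _)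
  have hψ : Fintype.card (Edge (Gamma0 N)) = ModularCurve.dedekindPsi N := by
    rw [← Nat.card_eq_fintype_card, card_edge_gamma0]
  rw [finrank_H1X0, card_cycleClass_T, hψ] at h1
  rw [card_fixed_S, hψ] at h2
  rw [card_fixed_R₃, hψ] at h3
  have q1 := congrArg (Nat.cast (R := ℚ)) h1
  have q2 := congrArg (Nat.cast (R := ℚ)) h2
  have q3 := congrArg (Nat.cast (R := ℚ)) h3
  push_cast at q1 q2 q3
  rw [ModularCurve.genusFormula]
  linarith

/-- A basis of the homology lattice. -/
noncomputable def basisH1X0 : Basis (Fin (2 * genusX0 N)) ℤ (H1X0 N) :=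
  Module.finBasisOfFinrankEq ℤ (H1X0 N) (finrank_H1X0 N)

/-- Homomorphisms out of the homology lattice. -/
noncomputable def homH1X0Equiv (A : Type*) [AddCommGroup A] :
    (H1X0 N →+ A) ≃+ (Fin (2 * genusX0 N) → A) :=
  (addMonoidHomLequivInt ℤ).toAddEquiv.trans ((basisH1X0 N).constr ℤ).toAddEquiv.symm

/-- Homomorphisms killing `±1`, parabolic and elliptic elements, as tuples. -/
noncomputable def killsEPEquivPi (A : Type*) [AddCommGroup A] :
    {φ : Additive (Gamma0 N) →+ A // KillsEP (Gamma0 N) φ} ≃ (Fin (2 * genusX0 N) → A) :=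
  (killsEPEquiv (Gamma0 N) A).trans (homH1X0Equiv N A).toEquiv

lemma killsEPEquivPi_apply {A : Type*} [AddCommGroup A]
    (φ : {φ : Additive (Gamma0 N) →+ A // KillsEP (Gamma0 N) φ})
    (i : Fin (2 * genusX0 N)) {γ : Additive (Gamma0 N)}
    (hγ : homProj (Gamma0 N) γ = basisH1X0 N i) :
    killsEPEquivPi N A φ i = φ.1 γ := by
  show homProjLift (Gamma0 N) φ.2 (basisH1X0 N i) = _
  rw [← hγ, homProjLift_homProj]

section Parabolic

/-- For torsion free targets parabolic homomorphisms kill elliptic elements too. -/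
theorem killsEP_iff_isParabolicHom {A : Type*} [AddCommGroup A] [IsAddTorsionFree A]
    (Γ : Subgroup SL(2, ℤ)) (φ : Additive Γ →+ A) :
    KillsEP Γ φ ↔ ModularCurve.Period.IsParabolicHom Γ φ := by
  refine ⟨fun h γ hγ => h γ hγ.le, fun h γ hγ => ?_⟩
  rcases hγ.lt_or_eq with hlt | heq
  · have h12 : γ ^ 12 = 1 := Subtype.ext (pow_twelve_eq_one hlt)
    have h0 : 12 • φ (Additive.ofMul γ) = 0 := by
      rw [← map_nsmul, ← ofMul_pow, h12]; simp
    exact (nsmul_eq_zero_iff_right (by norm_num)).mp h0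
  · exact h γ heq

variable (R : Type*) [Semiring R] (A : Type*) [AddCommGroup A] [Module R A] [IsAddTorsionFree A]

/-- Parabolic homomorphisms with torsion free values are `A ^ (2g)`. -/
noncomputable def parabolicHomsEquivPi :
    ModularCurve.Period.parabolicHoms R (Gamma0 N) A ≃ₗ[R] (Fin (2 * genusX0 N) → A) :=
  { toEquiv := (Equiv.subtypeEquivRight fun φ =>
      (ModularCurve.Period.mem_parabolicHoms_iff (R := R) (φ := φ)).trans
        (killsEP_iff_isParabolicHom (Gamma0 N) φ).symm).trans (killsEPEquivPi N A)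
    map_add' := fun φ ψ => by
      funext i
      obtain ⟨γ, hγ⟩ := homProj_surjective (Gamma0 N) (basisH1X0 N i)
      simp only [Equiv.toFun_as_coe, Equiv.trans_apply, Pi.add_apply,
        killsEPEquivPi_apply N _ i hγ]
      rfl
    map_smul' := fun r φ => by
      funext i
      obtain ⟨γ, hγ⟩ := homProj_surjective (Gamma0 N) (basisH1X0 N i)
      simp only [Equiv.toFun_as_coe, Equiv.trans_apply, Pi.smul_apply,
        killsEPEquivPi_apply N _ i hγ]
      rfl }

lemma parabolicHomsEquivPi_apply (φ : ModularCurve.Period.parabolicHoms R (Gamma0 N) A)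
    (i : Fin (2 * genusX0 N)) {γ : Additive (Gamma0 N)}
    (hγ : homProj (Gamma0 N) γ = basisH1X0 N i) :
    parabolicHomsEquivPi N R A φ i = φ.1 γ :=
  killsEPEquivPi_apply N _ i hγ

end Parabolic

/-- `dim parabolicHoms = 2g`. -/
theorem finrank_parabolicHoms (K : Type*) [Field K] [CharZero K] :
    finrank K (ModularCurve.Period.parabolicHoms K (Gamma0 N) K) = 2 * genusX0 N := by
  rw [(parabolicHomsEquivPi N K K).finrank_eq, finrank_pi, Fintype.card_fin]

theorem finrank_parabolicHoms_complex :
    (finrank ℂ (ModularCurve.Period.parabolicHoms ℂ (Gamma0 N) ℂ) : ℚ) =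
      2 * ModularCurve.genusFormula N := by
  rw [finrank_parabolicHoms, Nat.cast_mul, genusX0_eq_genusFormula]; norm_num

instance : FiniteDimensional ℂ (ModularCurve.Period.parabolicHoms ℂ (Gamma0 N) ℂ) :=
  Module.Finite.equiv (parabolicHomsEquivPi N ℂ ℂ).symm

end FermatAgent.ModCurveGroup
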