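import Fermat.Agent.ModCurve.Group.Universal

/-!
# The rank of the homology lattice
-/

namespace FermatAgent.ModCurveGroup

open ModularGroup Module
open scoped MatrixGroups

lemma finrank_range_add_ker_int {M N : Type*} [AddCommGroup M] [AddCommGroup N] [Module.Finite ℤ M]
    (f : M →ₗ[ℤ] N) : finrank ℤ (LinearMap.range f) + finrank ℤ (LinearMap.ker f) = finrank ℤ M := by
  rw [← f.quotKerEquivRange.finrank_eq]
  exact Submodule.finrank_quotient_add_finrank _

variable (Γ : Subgroup SL(2, ℤ)) [ContainsNegOne Γ] [Γ.FiniteIndex]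

/-- The incidence map from edges to vertices. -/
noncomputable def incidence : (Edge Γ → ℤ) →ₗ[ℤ]
    (CycleClass (permS Γ) → ℤ) × (CycleClass (permR Γ) → ℤ) :=
  (cycleSum (permS Γ) ℤ).prod (cycleSum (permR Γ) ℤ)

/-- The difference of the two total degrees. -/
noncomputable def degreeDiff : ((CycleClass (permS Γ) → ℤ) × (CycleClass (permR Γ) → ℤ)) →ₗ[ℤ] ℤ :=
  haveI := Fintype.ofFinite (CycleClass (permS Γ))
  LinearMap.coprod (∑ v, LinearMap.proj v) (-(∑ v, LinearMap.proj v))

omit [ContainsNegOne Γ] in
lemma incidence_edgeVec [DecidableEq (CycleClass (permS Γ))] [DecidableEq (CycleClass (permR Γ))]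
    (x : Edge Γ) :
    incidence Γ (edgeVec Γ x) =
      (Pi.single (cycleClassMk (permS Γ) x) 1, Pi.single (cycleClassMk (permR Γ) x) 1) := by
  classical
  ext v <;>
  · simp only [incidence, LinearMap.prod_apply, Function.prod_apply, cycleSum_apply, edgeVec_apply,
      Pi.single_apply, Finset.sum_ite_eq', mem_cycleFiber]
    simp [eq_comm]

lemma ker_incidence : LinearMap.ker (incidence Γ) = cycleLattice Γ := by
  ext c
  rw [LinearMap.mem_ker, incidence, LinearMap.prod_apply, Function.prod_apply, Prod.mk_eq_zero,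
    cycleSum_eq_zero_iff_of_sq (σ := permS Γ) (S_smul_S_smul Γ),
    cycleSum_eq_zero_iff_of_cube (σ := permR Γ) (R₃_smul_cube Γ), mem_cycleLattice]
  simp

lemma range_incidence : LinearMap.range (incidence Γ) = LinearMap.ker (degreeDiff Γ) := by
  classical
  apply le_antisymm
  · rintro _ ⟨c, rfl⟩
    have hc : c = ∑ x, c x • edgeVec Γ x := by
      ext z; simp [edgeVec_apply]
    rw [hc, LinearMap.mem_ker, map_sum, map_sum]
    refine Finset.sum_eq_zero fun x _ => ?_
    rw [map_smul, map_smul, incidence_edgeVec]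
    simp [degreeDiff, Pi.single_apply]
  · rintro ⟨f, g⟩ hfg
    set q := (LinearMap.range (incidence Γ)).mkQ with hq
    let inS : CycleClass (permS Γ) → _ := fun v =>
      q ((Pi.single v 1, 0) : (CycleClass (permS Γ) → ℤ) × (CycleClass (permR Γ) → ℤ))
    let inR : CycleClass (permR Γ) → _ := fun v =>
      q ((0, Pi.single v 1) : (CycleClass (permS Γ) → ℤ) × (CycleClass (permR Γ) → ℤ))
    have hrel : ∀ x, inS (cycleClassMk _ x) + inR (cycleClassMk _ x) = 0 := fun x => by
      simp only [inS, inR, ← map_add, Prod.mk_add_mk, add_zero, zero_add, ← incidence_edgeVec]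
      simp [hq]
    have hc : ∀ x, inS (cycleClassMk _ x) = inS (cycleClassMk _ (baseEdge Γ)) := by
      refine eq_const_of_invariant Γ _ (fun x => congrArg inS (cycleClassMk_apply (permS Γ) x))
        (fun x => ?_)
      rw [T_smul_eq]
      rw [eq_neg_of_add_eq_zero_left (hrel (R₃ • (S : SL(2, ℤ)) • x))]
      rw [show cycleClassMk (permR Γ) (R₃ • (S : SL(2, ℤ)) • x) = _ from
        cycleClassMk_apply (permR Γ) _]
      rw [← eq_neg_of_add_eq_zero_left (hrel ((S : SL(2, ℤ)) • x))]
      exact congrArg inS (cycleClassMk_apply (permS Γ) x)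
    rw [← Submodule.Quotient.mk_eq_zero, ← Submodule.mkQ_apply]
    set K := inS (cycleClassMk _ (baseEdge Γ)) with hK
    have hS : ∀ v, inS v = K := fun v => by
      obtain ⟨x, rfl⟩ := cycleClassMk_surjective _ v
      exact hc x
    have hR : ∀ v, inR v = -K := fun v => by
      obtain ⟨x, rfl⟩ := cycleClassMk_surjective _ v
      rw [← hc x]
      exact eq_neg_of_add_eq_zero_right (hrel x)
    have hdec : ((f, g) : (CycleClass (permS Γ) → ℤ) × (CycleClass (permR Γ) → ℤ)) =
        ∑ v, f v • (Pi.single v 1, 0) + ∑ v, g v • (0, Pi.single v 1) := by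
      ext v <;> simp [Prod.fst_sum, Prod.snd_sum, Pi.single_apply]
    rw [hdec, map_add, map_sum, map_sum]
    simp only [map_smul]
    change ∑ v, f v • inS v + ∑ v, g v • inR v = 0
    simp only [hS, hR, smul_neg, Finset.sum_neg_distrib, ← Finset.sum_smul, ← sub_eq_add_neg,
      ← sub_smul]
    have : ∑ v, f v - ∑ v, g v = 0 := by
      simpa [degreeDiff, sub_eq_add_neg] using hfg
    rw [this, zero_smul]

lemma finrank_cycleLattice :
    finrank ℤ (cycleLattice Γ) + Nat.card (CycleClass (permS Γ)) +
      Nat.card (CycleClass (permR Γ)) = Fintype.card (Edge Γ) + 1 := by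
  classical
  have h1 := finrank_range_add_ker_int (incidence Γ)
  have h2 := finrank_range_add_ker_int (degreeDiff Γ)
  have h3 : LinearMap.range (degreeDiff Γ) = ⊤ := by
    rw [LinearMap.range_eq_top]
    intro m
    exact ⟨(Pi.single (cycleClassMk _ (baseEdge Γ)) m, 0), by simp [degreeDiff]⟩
  rw [ker_incidence, range_incidence, finrank_pi] at h1
  rw [h3, finrank_top, finrank_self, finrank_prod, finrank_pi, finrank_pi] at h2
  simp only [Nat.card_eq_fintype_card]
  omega

/-- The boundary map on faces. -/
noncomputable def faceMap : (CycleClass (permT Γ) → ℤ) →ₗ[ℤ] (Edge Γ → ℤ) :=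
  (faceBoundary Γ).comp (LinearMap.funLeft ℤ ℤ (cycleClassMk (permT Γ)))

omit [ContainsNegOne Γ] in
lemma faceFunctions_eq :
    faceFunctions Γ = LinearMap.range (LinearMap.funLeft ℤ ℤ (cycleClassMk (permT Γ))) := by
  ext a
  constructor
  · intro ha
    refine ⟨fun v => a v.out, ?_⟩
    funext x
    exact invariant_of_cycleClassMk_eq (σ := permT Γ) ha (by simp [cycleClassMk])
  · rintro ⟨b, rfl⟩ x
    exact congrArg b (cycleClassMk_apply (permT Γ) x)

omit [ContainsNegOne Γ] [Γ.FiniteIndex] in
lemma finrank_ker_faceMap : finrank ℤ (LinearMap.ker (faceMap Γ)) = 1 := by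
  let ι : ℤ →ₗ[ℤ] (CycleClass (permT Γ) → ℤ) := LinearMap.pi fun _ => LinearMap.id
  have hker : LinearMap.ker (faceMap Γ) = LinearMap.range ι := by
    ext a
    constructor
    · intro ha
      refine ⟨a (cycleClassMk _ (baseEdge Γ)), funext fun v => ?_⟩
      obtain ⟨x, rfl⟩ := cycleClassMk_surjective _ v
      refine (eq_const_of_invariant Γ (fun z => a (cycleClassMk (permT Γ) z)) (fun z => ?_)
        (fun z => congrArg a (cycleClassMk_apply (permT Γ) z)) x).symm
      have := congrFun (LinearMap.mem_ker.mp ha) z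
      simpa [faceMap, sub_eq_zero] using this
    · rintro ⟨m, rfl⟩
      ext z
      simp [faceMap, ι]
  have : Nonempty (CycleClass (permT Γ)) := ⟨cycleClassMk _ (baseEdge Γ)⟩
  rw [hker, LinearMap.finrank_range_of_inj, finrank_self]
  intro m n h
  exact congrFun h (cycleClassMk _ (baseEdge Γ))

lemma finrank_faceLattice :
    finrank ℤ (faceLattice Γ) + 1 = Nat.card (CycleClass (permT Γ)) := by
  have h1 := finrank_range_add_ker_int (faceMap Γ)
  rw [finrank_ker_faceMap, finrank_pi] at h1
  have hle : (faceFunctions Γ).map (faceBoundary Γ) ≤ cycleLattice Γ := by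
    rintro _ ⟨a, ha, rfl⟩
    exact faceBoundary_mem_cycleLattice Γ ha
  have h2 : (faceFunctions Γ).map (faceBoundary Γ) = LinearMap.range (faceMap Γ) := by
    rw [faceFunctions_eq, faceMap, LinearMap.range_comp]
  rw [faceLattice, (Submodule.comapSubtypeEquivOfLe hle).finrank_eq, h2,
    Nat.card_eq_fintype_card]
  omega

/-- The rank of the homology lattice. -/
theorem finrank_homologyLattice :
    finrank ℤ (HomologyLattice Γ) + Nat.card (CycleClass (permS Γ)) +
      Nat.card (CycleClass (permR Γ)) + Nat.card (CycleClass (permT Γ)) =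
        Fintype.card (Edge Γ) + 2 := by
  have h1 := finrank_cycleLattice Γ
  have h2 := finrank_faceLattice Γ
  have h3 : finrank ℤ (HomologyLattice Γ) + finrank ℤ (faceLattice Γ) =
      finrank ℤ (cycleLattice Γ) := (faceLattice Γ).finrank_quotient_add_finrank
  omega

instance : Module.Free ℤ (HomologyLattice Γ) := Module.free_of_finite_type_torsion_free'

/-- The rank of the homology lattice is even. -/
theorem even_finrank_homologyLattice : Even (finrank ℤ (HomologyLattice Γ)) := by
  classical
  have hrk := finrank_homologyLattice Γ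
  have h3 := three_mul_card_cycleClass (σ := permR Γ) (R₃_smul_cube Γ)
  have hT : permT Γ = permR Γ * permS Γ := Equiv.ext fun x => T_smul_eq Γ x
  have hR1 : Equiv.Perm.sign (permR Γ) = 1 := by
    have hc : permR Γ ^ 3 = 1 := Equiv.ext fun x => by simp [pow_succ, R₃_smul_cube]
    have := congrArg Equiv.Perm.sign hc
    rw [map_pow, map_one] at this
    rcases Int.units_eq_one_or (Equiv.Perm.sign (permR Γ)) with e | e
    · exact e
    · rw [e] at this; exact absurd this (by decide)
  have hsign := congrArg Equiv.Perm.sign hT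
  rw [map_mul, hR1, one_mul, sign_eq_neg_one_pow_card_cycleClass,
    sign_eq_neg_one_pow_card_cycleClass] at hsign
  have hpar : (Fintype.card (Edge Γ) + Nat.card (CycleClass (permT Γ))) % 2 =
      (Fintype.card (Edge Γ) + Nat.card (CycleClass (permS Γ))) % 2 := by
    rcases Nat.even_or_odd (Fintype.card (Edge Γ) + Nat.card (CycleClass (permT Γ))) with e | e <;>
    rcases Nat.even_or_odd (Fintype.card (Edge Γ) + Nat.card (CycleClass (permS Γ))) with e' | e'
    · rw [Nat.even_iff.mp e, Nat.even_iff.mp e']
    · rw [e.neg_one_pow, e'.neg_one_pow] at hsign; exact absurd hsign (by decide)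
    · rw [e.neg_one_pow, e'.neg_one_pow] at hsign; exact absurd hsign (by decide)
    · rw [Nat.odd_iff.mp e, Nat.odd_iff.mp e']
  rw [Nat.even_iff]
  omega

end FermatAgent.ModCurveGroup
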