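import Mathlib

/-!
# Parabolic and elliptic elements of `SL(2,ℤ)`
-/

namespace FermatAgent.ModCurveGroup

open Matrix ModularGroup
open scoped MatrixGroups

lemma trace_conj_SL (g h : SL(2, ℤ)) :
    ((h⁻¹ * g * h : SL(2, ℤ)) : Matrix (Fin 2) (Fin 2) ℤ).trace =
      (g : Matrix (Fin 2) (Fin 2) ℤ).trace := by
  show ((h⁻¹ : SL(2, ℤ)).1 * g.1 * h.1).trace = g.1.trace
  rw [Matrix.trace_mul_comm, ← Matrix.mul_assoc]
  show (((h * h⁻¹ : SL(2, ℤ))).1 * g.1).trace = g.1.trace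
  simp

lemma trace_T_zpow (n : ℤ) : ((T ^ n : SL(2, ℤ)) : Matrix (Fin 2) (Fin 2) ℤ).trace = 2 := by
  simp [coe_T_zpow, trace_fin_two]

lemma SL2Z_det_eq (g : SL(2, ℤ)) : g 0 0 * g 1 1 - g 0 1 * g 1 0 = 1 := by
  have := g.det_coe
  rw [det_fin_two] at this
  exact this

lemma coe_mul_apply_SL (g h : SL(2, ℤ)) (i j : Fin 2) :
    (g * h) i j = g i 0 * h 0 j + g i 1 * h 1 j := by
  simp [Matrix.mul_apply, Fin.sum_univ_two]

lemma coe_inv_one_zero (g : SL(2, ℤ)) : (g⁻¹ : SL(2, ℤ)) 1 0 = -g 1 0 := by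
  simp [SpecialLinearGroup.SL2_inv_expl]

lemma coe_inv_one_one (g : SL(2, ℤ)) : (g⁻¹ : SL(2, ℤ)) 1 1 = g 0 0 := by
  simp [SpecialLinearGroup.SL2_inv_expl]

/-- An element of `SL(2,ℤ)` with trace `±2` is conjugate to `±T ^ n`. -/
theorem exists_conj_T_zpow {g : SL(2, ℤ)} (hg : (g : Matrix (Fin 2) (Fin 2) ℤ).trace ^ 2 = 4) :
    ∃ (h : SL(2, ℤ)) (n : ℤ), h⁻¹ * g * h = T ^ n ∨ h⁻¹ * g * h = -(T ^ n) := by
  obtain ⟨ε, hε, hε'⟩ : ∃ ε : ℤ, (ε = 1 ∨ ε = -1) ∧ g 0 0 + g 1 1 = 2 * ε := by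
    have : (g 0 0 + g 1 1) ^ 2 = 2 ^ 2 := by rw [← trace_fin_two]; simpa using hg
    rcases sq_eq_sq_iff_eq_or_eq_neg.mp this with e | e
    · exact ⟨1, Or.inl rfl, by omega⟩
    · exact ⟨-1, Or.inr rfl, by omega⟩
  have hdet := SL2Z_det_eq g
  obtain ⟨h, hh⟩ : ∃ h : SL(2, ℤ), (h⁻¹ * g * h) 1 0 = 0 := by
    by_cases hc : g 1 0 = 0
    · exact ⟨1, by simpa using hc⟩
    · obtain ⟨p, q, hpq, hp, hq⟩ := Int.exists_gcd_one
        (Int.gcd_pos_of_ne_zero_right (g 0 0 - ε) hc)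
      obtain ⟨h, h0, h1⟩ := (Int.isCoprime_iff_gcd_eq_one.mpr hpq).exists_SL2_col 0
      refine ⟨h, ?_⟩
      have hG : (Int.gcd (g 0 0 - ε) (g 1 0) : ℤ) ≠ 0 := by
        simp [Int.gcd_eq_zero_iff, hc]
      generalize (Int.gcd (g 0 0 - ε) (g 1 0) : ℤ) = G at hp hq hG
      have k : G * (h⁻¹ * g * h) 1 0 = 0 := by
        rw [coe_mul_apply_SL, coe_mul_apply_SL, coe_mul_apply_SL, coe_inv_one_zero,
          coe_inv_one_one, h0, h1]
        have e1 : g 0 0 * (g 0 0 - ε) + g 0 1 * g 1 0 = ε * (g 0 0 - ε) := by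
          rcases hε with rfl | rfl <;> linear_combination (g 0 0) * hε' - hdet
        have e2 : g 1 0 * (g 0 0 - ε) + g 1 1 * g 1 0 = ε * g 1 0 := by
          linear_combination (g 1 0) * hε'
        have e1' : g 0 0 * (p * G) + g 0 1 * (q * G) = ε * (p * G) := by rw [← hp, ← hq]; exact e1
        have e2' : g 1 0 * (p * G) + g 1 1 * (q * G) = ε * (q * G) := by rw [← hp, ← hq]; exact e2
        linear_combination (-q) * e1' + p * e2'
      exact (mul_eq_zero.mp k).resolve_left hG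
  have hd := SL2Z_det_eq (h⁻¹ * g * h)
  rw [hh, mul_zero, sub_zero] at hd
  refine ⟨h, ?_⟩
  generalize h⁻¹ * g * h = k at hh hd
  rcases Int.eq_one_or_neg_one_of_mul_eq_one' hd with ⟨ha, hd⟩ | ⟨ha, hd⟩
  · refine ⟨k 0 1, Or.inl ?_⟩
    ext i j
    fin_cases i <;> fin_cases j <;> simp [coe_T_zpow, ha, hd, hh]
  · refine ⟨-k 0 1, Or.inr ?_⟩
    ext i j
    fin_cases i <;> fin_cases j <;> simp [coe_T_zpow, ha, hd, hh]

lemma sq_eq_trace_smul_sub_one (g : SL(2, ℤ)) :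
    ((g : Matrix (Fin 2) (Fin 2) ℤ)) ^ 2 =
      (g : Matrix (Fin 2) (Fin 2) ℤ).trace • (g : Matrix (Fin 2) (Fin 2) ℤ) - 1 := by
  have hdet := SL2Z_det_eq g
  ext i j
  fin_cases i <;> fin_cases j <;>
    simp [pow_two, Matrix.mul_apply, Fin.sum_univ_two, trace_fin_two, -zsmul_eq_mul,
      Matrix.smul_apply] <;>
    first
      | linear_combination -hdet
      | ring

/-- An element with `|trace| < 2` has order dividing `12`. -/
theorem pow_twelve_eq_one {g : SL(2, ℤ)} (hg : (g : Matrix (Fin 2) (Fin 2) ℤ).trace ^ 2 < 4) :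
    g ^ 12 = 1 := by
  set M := (g : Matrix (Fin 2) (Fin 2) ℤ) with hM
  have hM2 : M ^ 2 = M.trace • M - 1 := sq_eq_trace_smul_sub_one g
  suffices h : M ^ 12 = 1 by
    apply Subtype.ext
    simpa [hM] using h
  have h12 : M ^ 12 = ((M ^ 2) ^ 2) ^ 3 := by rw [← pow_mul, ← pow_mul]
  have h12' : M ^ 12 = (M ^ 3) ^ 4 := by rw [← pow_mul]
  obtain h | h | h : M.trace = -1 ∨ M.trace = 0 ∨ M.trace = 1 := by
    have : -1 ≤ M.trace := by nlinarith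
    have : M.trace ≤ 1 := by nlinarith
    omega
  · have h3 : M ^ 3 = 1 := by
      rw [pow_succ, hM2, h]; simp [sub_mul, ← pow_two, hM2, h]
    rw [h12', h3, one_pow]
  · rw [h12, hM2, h]; simp
  · have h3 : M ^ 3 = -1 := by
      rw [pow_succ, hM2, h]; simp [sub_mul, ← pow_two, hM2, h]
    rw [h12', h3]; exact Even.neg_one_pow ⟨2, rfl⟩

end FermatAgent.ModCurveGroup
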