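import Fermat.Agent.ModCurve.Group.Dessin
import Fermat.Agent.ModCurve.Group.Conjugacy

/-!
# The universal property of `homProj`
-/

namespace FermatAgent.ModCurveGroup

open ModularGroup
open scoped MatrixGroups

/-- Homomorphisms killing all elements of trace in `[-2, 2]`, i.e. `±1`, parabolic and elliptic
elements. -/
def KillsEP (Γ : Subgroup SL(2, ℤ)) {A : Type*} [AddCommGroup A] (φ : Additive Γ →+ A) : Prop :=
  ∀ γ : Γ, ((γ : SL(2, ℤ)) : Matrix (Fin 2) (Fin 2) ℤ).trace ^ 2 ≤ 4 → φ (Additive.ofMul γ) = 0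

variable (Γ : Subgroup SL(2, ℤ)) [ContainsNegOne Γ]

omit [ContainsNegOne Γ] in
lemma T_pow_succ_smul (n : ℕ) (x : Edge Γ) :
    ((T : SL(2, ℤ)) ^ (n + 1)) • x = (T : SL(2, ℤ)) • ((T : SL(2, ℤ)) ^ n) • x := by
  rw [pow_succ', mul_smul]

lemma pathChain_T_pow (n : ℕ) (x : Edge Γ) :
    pathChain Γ (T ^ n) x =
      faceBoundary Γ (∑ j ∈ Finset.range n, edgeVec Γ ((T : SL(2, ℤ)) ^ j • x)) := by
  classical
  induction n with
  | zero => simp
  | succ n ih =>
    rw [pow_succ', pathChain_mul, ih, pathChain_T, Finset.sum_range_succ, map_add, add_comm]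
    congr 1
    ext z
    generalize (T : SL(2, ℤ)) ^ n • x = y
    have : (z = (S : SL(2, ℤ)) • y) ↔ (S : SL(2, ℤ)) • z = y := by
      constructor
      · rintro rfl; exact S_smul_S_smul Γ y
      · intro h; rw [← h, S_smul_S_smul]
    simp only [faceBoundary_apply, Pi.sub_apply, edgeVec_apply, this]

omit [ContainsNegOne Γ] in
lemma orbitSum_mem_faceFunctions {n : ℕ} {x : Edge Γ} (h : (T : SL(2, ℤ)) ^ n • x = x) :
    ∑ j ∈ Finset.range n, edgeVec Γ ((T : SL(2, ℤ)) ^ j • x) ∈ faceFunctions Γ := by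
  classical
  intro z
  have shift : ∀ j : ℕ, ((T : SL(2, ℤ)) • z = (T : SL(2, ℤ)) ^ (j + 1) • x) ↔
      z = (T : SL(2, ℤ)) ^ j • x := fun j => by
    rw [T_pow_succ_smul]; exact smul_left_cancel_iff _
  simp only [Finset.sum_apply, edgeVec_apply]
  have h1 := Finset.sum_range_succ'
    (fun j => if (T : SL(2, ℤ)) • z = (T : SL(2, ℤ)) ^ j • x then (1 : ℤ) else 0) n
  have h2 := Finset.sum_range_succ
    (fun j => if (T : SL(2, ℤ)) • z = (T : SL(2, ℤ)) ^ j • x then (1 : ℤ) else 0) n
  rw [h2] at h1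
  simp only [shift, h, pow_zero, one_smul] at h1
  omega

lemma pathChain_T_zpow_mem {n : ℤ} {x : Edge Γ} (h : (T : SL(2, ℤ)) ^ n • x = x) :
    ∃ a ∈ faceFunctions Γ, pathChain Γ (T ^ n) x = faceBoundary Γ a := by
  obtain ⟨m, rfl | rfl⟩ := n.eq_nat_or_neg
  · rw [zpow_natCast] at h ⊢
    exact ⟨_, orbitSum_mem_faceFunctions Γ h, pathChain_T_pow Γ m x⟩
  · rw [zpow_neg, zpow_natCast] at h ⊢
    have h' : (T : SL(2, ℤ)) ^ m • x = x := (inv_smul_eq_iff.mp h).symm
    refine ⟨_, neg_mem (orbitSum_mem_faceFunctions Γ h'), ?_⟩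
    rw [pathChain_inv, h, pathChain_T_pow, map_neg]

lemma pathChain_neg (g : SL(2, ℤ)) (x : Edge Γ) : pathChain Γ (-g) x = pathChain Γ g x := by
  rw [← neg_one_mul g, pathChain_mul]; simp

lemma neg_smul_edge (g : SL(2, ℤ)) (x : Edge Γ) : (-g) • x = g • x := by
  rw [← neg_one_mul g, mul_smul, neg_one_smul_edge]

lemma homProj_eq_zero_iff (γ : Γ) : homProj Γ (Additive.ofMul γ) = 0 ↔
    ∃ a ∈ faceFunctions Γ, pathChain Γ γ (baseEdge Γ) = faceBoundary Γ a := by
  simp only [homProj, AddMonoidHom.comp_apply, LinearMap.toAddMonoidHom_coe,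
    Submodule.mkQ_apply, Submodule.Quotient.mk_eq_zero]
  simp [faceLattice, loopCycle_apply, eq_comm]

lemma homProj_of_trace_sq_eq {γ : Γ}
    (hγ : ((γ : SL(2, ℤ)) : Matrix (Fin 2) (Fin 2) ℤ).trace ^ 2 = 4) :
    homProj Γ (Additive.ofMul γ) = 0 := by
  obtain ⟨h, n, hn⟩ := exists_conj_T_zpow hγ
  rw [homProj_eq_zero_iff]
  set x := h⁻¹ • baseEdge Γ
  have hx : (γ : SL(2, ℤ)) • baseEdge Γ = baseEdge Γ := smul_baseEdge_of_mem Γ γ.2
  have key : (h⁻¹ * γ * h) • x = x ∧
      pathChain Γ (h⁻¹ * γ * h) x = pathChain Γ γ (baseEdge Γ) := by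
    constructor
    · simp [x, mul_smul, hx]
    · rw [pathChain_mul, pathChain_mul, pathChain_inv]
      simp [x, hx]
  have hk : (T : SL(2, ℤ)) ^ n • x = x ∧
      pathChain Γ (T ^ n) x = pathChain Γ γ (baseEdge Γ) := by
    rcases hn with e | e
    · rwa [e] at key
    · rw [e, neg_smul_edge, pathChain_neg] at key; exact key
  obtain ⟨a, ha, e⟩ := pathChain_T_zpow_mem Γ hk.1
  exact ⟨a, ha, hk.2 ▸ e⟩

omit [ContainsNegOne Γ] in
/-- The homology lattice is torsion free. -/
lemma homologyLattice_smul_eq_zero {m : ℤ} (hm : m ≠ 0) {v : HomologyLattice Γ}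
    (h : m • v = 0) : v = 0 := by
  obtain ⟨⟨c, hc⟩, rfl⟩ := (faceLattice Γ).mkQ_surjective v
  rw [← map_smul, Submodule.mkQ_apply, Submodule.Quotient.mk_eq_zero] at h
  simp [faceLattice] at h
  obtain ⟨a, ha, e⟩ := h
  rw [Submodule.mkQ_apply, Submodule.Quotient.mk_eq_zero]
  have hS : ∀ x, a ((S : SL(2, ℤ)) • x) = a x + m * c x := fun x => by
    have := congrFun e x
    simp at this
    omega
  have hmod : ∀ x, m ∣ a x - a (baseEdge Γ) := by
    intro x
    have := eq_const_of_invariant Γ (fun z => (a z : ℤ) % m)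
      (fun z => by simp [hS, Int.add_mul_emod_self_left]) (fun z => by simp [ha z]) x
    exact Int.ModEq.dvd this.symm
  choose b hb using hmod
  simp only [faceLattice, Submodule.mem_comap, Submodule.subtype_apply, Submodule.mem_map]
  refine ⟨b, fun x => mul_left_cancel₀ hm (by rw [← hb, ← hb, ha]), ?_⟩
  funext x
  refine mul_left_cancel₀ hm ?_
  rw [faceBoundary_apply, mul_sub, ← hb, ← hb, hS]
  ring

instance : IsAddTorsionFree (HomologyLattice Γ) := by
  refine ⟨fun n hn v w h => ?_⟩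
  simp only at h
  rw [← sub_eq_zero]
  refine homologyLattice_smul_eq_zero Γ (m := n) (by simpa using hn) ?_
  rw [natCast_zsmul, smul_sub, h, sub_self]

/-- `homProj` kills `±1`, parabolic and elliptic elements. -/
theorem killsEP_homProj : KillsEP Γ (homProj Γ) := by
  intro γ hγ
  rcases hγ.lt_or_eq with hlt | heq
  · refine homologyLattice_smul_eq_zero Γ (m := 12) (by norm_num) ?_
    have h12 : γ ^ 12 = 1 := Subtype.ext (pow_twelve_eq_one hlt)
    rw [show (12 : ℤ) = ((12 : ℕ) : ℤ) from rfl, natCast_zsmul, ← map_nsmul, ← ofMul_pow, h12]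
    simp
  · exact homProj_of_trace_sq_eq Γ heq

variable [Γ.FiniteIndex]

/-- Pairing of chains with a function on the edges. -/
noncomputable def chainPairing {A : Type*} [AddCommGroup A] (d : Edge Γ → A) :
    (Edge Γ → ℤ) →ₗ[ℤ] A :=
  ∑ x, (LinearMap.proj x).smulRight (d x)

omit [ContainsNegOne Γ] in
lemma chainPairing_apply {A : Type*} [AddCommGroup A] (d : Edge Γ → A) (c : Edge Γ → ℤ) :
    chainPairing Γ d c = ∑ x, c x • d x := by
  simp [chainPairing]

omit [ContainsNegOne Γ] in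
lemma chainPairing_edgeVec {A : Type*} [AddCommGroup A] (d : Edge Γ → A) (x : Edge Γ) :
    chainPairing Γ d (edgeVec Γ x) = d x := by
  classical
  simp [chainPairing_apply, edgeVec_apply, ite_smul]

section Lift

variable {A : Type*} [AddCommGroup A] {φ : Additive Γ →+ A}

omit [ContainsNegOne Γ] [Γ.FiniteIndex] in
lemma map_sectionConj_mul (g h : SL(2, ℤ)) (x : Edge Γ) :
    φ (Additive.ofMul (sectionConj Γ (g * h) x)) =
      φ (Additive.ofMul (sectionConj Γ g (h • x))) + φ (Additive.ofMul (sectionConj Γ h x)) := by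
  rw [← map_add, ← ofMul_mul]
  congr 2
  ext1
  simp [coe_sectionConj, mul_smul, mul_assoc]

omit [ContainsNegOne Γ] [Γ.FiniteIndex] in
lemma map_sectionConj_of_fix (hφ : KillsEP Γ φ) {g : SL(2, ℤ)} {x : Edge Γ} (hx : g • x = x)
    (hg : (g : Matrix (Fin 2) (Fin 2) ℤ).trace ^ 2 ≤ 4) :
    φ (Additive.ofMul (sectionConj Γ g x)) = 0 := by
  refine hφ _ ?_
  rw [coe_sectionConj, hx, trace_conj_SL]
  exact hg

lemma exists_potential (hφ : KillsEP Γ φ) :
    ∃ d b : Edge Γ → A, ∀ g x, φ (Additive.ofMul (sectionConj Γ g x)) =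
      chainPairing Γ d (pathChain Γ g x) + (b (g • x) - b x) := by
  set u := fun g x => φ (Additive.ofMul (sectionConj Γ g x)) with hu
  have umul : ∀ g h x, u (g * h) x = u g (h • x) + u h x := map_sectionConj_mul Γ
  have uneg : ∀ x, u (-1) x = 0 := fun x =>
    map_sectionConj_of_fix Γ hφ (neg_one_smul_edge Γ x)
      (by simp)
  obtain ⟨a, ha⟩ := exists_sub_eq_of_sq (σ := permS Γ) (S_smul_S_smul Γ) (u S)
    (fun x => by
      rw [permS_apply, add_comm, ← umul, S_mul_S, uneg])
    (fun x hx => map_sectionConj_of_fix Γ hφ hx (by simp [Matrix.trace_fin_two, coe_S]))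
  obtain ⟨b, hb⟩ := exists_sub_eq_of_cube (σ := permR Γ) (R₃_smul_cube Γ) (u R₃)
    (fun x => by
      have : u (R₃ * R₃ * R₃) x = 0 := by
        rw [show R₃ * R₃ * R₃ = -1 from by rw [← R₃_pow_three]; simp [pow_succ]]; exact uneg x
      rw [umul, umul] at this
      simp only [permR_apply]
      rw [← this]; abel)
    (fun x hx => map_sectionConj_of_fix Γ hφ hx (by simp [Matrix.trace_fin_two, coe_R₃]))
  refine ⟨fun x => a x - b x, b, fun g => ?_⟩
  refine SL2Z_induction (P := fun g => ∀ x, u g x =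
      chainPairing Γ (fun x => a x - b x) (pathChain Γ g x) + (b (g • x) - b x))
      ?_ ?_ ?_ ?_ ?_ g
  · intro x
    rw [pathChain_S, map_sub, chainPairing_edgeVec, chainPairing_edgeVec, ← ha x, permS_apply]
    abel
  · intro x
    rw [pathChain_R₃, map_zero, zero_add, ← hb x, permR_apply]
  · intro x
    have h1 := umul 1 1 x
    rw [mul_one, one_smul] at h1
    simpa using h1
  · intro g h hg hh x
    rw [umul, hg, hh, pathChain_mul, map_add, mul_smul]
    abel
  · intro g hg x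
    have h1 := umul g g⁻¹ x
    have h0 : u 1 x = 0 := by
      have := umul 1 1 x
      rw [mul_one, one_smul] at this
      simpa using this
    rw [mul_inv_cancel, h0, hg] at h1
    rw [pathChain_inv, map_neg, eq_neg_of_add_eq_zero_right h1.symm, smul_inv_smul]
    abel

lemma chainPairing_faceBoundary_eq_zero (hφ : KillsEP Γ φ) {d b : Edge Γ → A}
    (hd : ∀ g x, φ (Additive.ofMul (sectionConj Γ g x)) =
      chainPairing Γ d (pathChain Γ g x) + (b (g • x) - b x))
    {a : Edge Γ → ℤ} (ha : a ∈ faceFunctions Γ) :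
    chainPairing Γ d (faceBoundary Γ a) = 0 := by
  classical
  -- decompose `a` as a combination of indicator functions of faces
  have hdec : a = ∑ v : CycleClass (permT Γ),
      a v.out • ∑ x ∈ cycleFiber (permT Γ) v, edgeVec Γ x := by
    funext z
    simp only [Finset.sum_apply, Pi.smul_apply, edgeVec_apply, Finset.sum_ite_eq, mem_cycleFiber,
      smul_eq_mul, mul_ite, mul_one, mul_zero, Finset.mem_univ, if_true]
    refine invariant_of_cycleClassMk_eq (σ := permT Γ) ha ?_
    simp [cycleClassMk]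
  rw [hdec, map_sum, map_sum]
  refine Finset.sum_eq_zero fun v _ => ?_
  rw [map_smul, map_smul]
  convert smul_zero (a v.out)
  obtain ⟨x, rfl⟩ := cycleClassMk_surjective _ v
  set w := Function.minimalPeriod (permT Γ) x with hw
  have hper : 0 < w ∧ (T : SL(2, ℤ)) ^ w • x = x := by
    have hmem : x ∈ Function.periodicPts (permT Γ) := by
      refine Function.mk_mem_periodicPts (orderOf_pos (permT Γ)) ?_
      rw [Function.IsPeriodicPt, Function.IsFixedPt, ← Equiv.Perm.coe_pow, pow_orderOf_eq_one]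
      rfl
    refine ⟨Function.minimalPeriod_pos_of_mem_periodicPts hmem, ?_⟩
    have := Function.iterate_minimalPeriod (f := permT Γ) (x := x)
    rwa [← hw, show ⇑(permT Γ) = ((T : SL(2, ℤ)) • ·) from rfl, smul_iterate] at this
  have hfib : cycleFiber (permT Γ) (cycleClassMk (permT Γ) x) =
      (Finset.range w).image (fun j => (T : SL(2, ℤ)) ^ j • x) := by
    ext y
    simp only [mem_cycleFiber, Finset.mem_image, Finset.mem_range, cycleClassMk_eq_iff]
    have hpow : ∀ j : ℕ, ((permT Γ) ^ j) x = (T : SL(2, ℤ)) ^ j • x := fun j => by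
      rw [Equiv.Perm.coe_pow, show ⇑(permT Γ) = ((T : SL(2, ℤ)) • ·) from rfl, smul_iterate]
    constructor
    · intro hy
      obtain ⟨i, -, rfl⟩ := hy.symm.exists_pow_eq'
      refine ⟨i % w, Nat.mod_lt _ hper.1, ?_⟩
      rw [← hpow, Equiv.Perm.coe_pow, Equiv.Perm.coe_pow, hw, Function.iterate_mod_minimalPeriod_eq]
    · rintro ⟨j, -, rfl⟩
      exact Equiv.Perm.SameCycle.symm ⟨j, by rw [zpow_natCast, hpow]⟩
  rw [hfib, Finset.sum_image, ← pathChain_T_pow]
  · have h1 := hd (T ^ w) x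
    rw [hper.2, sub_self, add_zero] at h1
    rw [← h1]
    refine map_sectionConj_of_fix Γ hφ hper.2 ?_
    rw [← zpow_natCast, trace_T_zpow]
    norm_num
  · intro i hi j hj e
    refine Function.iterate_injOn_Iio_minimalPeriod (f := permT Γ) (x := x)
      (Finset.mem_range.mp hi) (Finset.mem_range.mp hj) ?_
    simpa [show ⇑(permT Γ) = ((T : SL(2, ℤ)) • ·) from rfl, smul_iterate] using e

/-- The universal property of `homProj`. -/
theorem exists_homProj_lift (hφ : KillsEP Γ φ) :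
    ∃ l : HomologyLattice Γ →ₗ[ℤ] A, ∀ γ, l (homProj Γ γ) = φ γ := by
  obtain ⟨d, b, hd⟩ := exists_potential Γ hφ
  refine ⟨(faceLattice Γ).liftQ ((chainPairing Γ d).comp (cycleLattice Γ).subtype) ?_, fun γ => ?_⟩
  · rintro c hc
    obtain ⟨a, ha, e⟩ := hc
    rw [LinearMap.mem_ker, LinearMap.comp_apply, ← e]
    exact chainPairing_faceBoundary_eq_zero Γ hφ hd ha
  · obtain ⟨γ, rfl⟩ : ∃ g : Γ, Additive.ofMul g = γ := ⟨Additive.toMul γ, rfl⟩
    have h1 := hd γ (baseEdge Γ)
    rw [smul_baseEdge_of_mem Γ γ.2, sub_self, add_zero] at h1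
    have hconj : φ (Additive.ofMul (sectionConj Γ (γ : SL(2, ℤ)) (baseEdge Γ))) =
        φ (Additive.ofMul γ) := by
      have hρ : edgeSection Γ (baseEdge Γ) ∈ Γ := by
        have h := edgeSection_smul Γ (baseEdge Γ)
        rw [smul_baseEdge, baseEdge, QuotientGroup.eq] at h
        simpa [baseEdge] using h
      have : sectionConj Γ (γ : SL(2, ℤ)) (baseEdge Γ) = ⟨_, hρ⟩⁻¹ * γ * ⟨_, hρ⟩ := by
        ext1
        simp [coe_sectionConj, smul_baseEdge_of_mem Γ γ.2]
      rw [this, ofMul_mul, ofMul_mul, ofMul_inv, map_add, map_add, map_neg]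
      abel
    rw [← hconj, h1]
    rfl

/-- The lift of a homomorphism killing elliptic and parabolic elements. -/
noncomputable def homProjLift (hφ : KillsEP Γ φ) : HomologyLattice Γ →+ A :=
  (exists_homProj_lift Γ hφ).choose.toAddMonoidHom

@[simp]
lemma homProjLift_homProj (hφ : KillsEP Γ φ) (γ : Additive Γ) :
    homProjLift Γ hφ (homProj Γ γ) = φ γ :=
  (exists_homProj_lift Γ hφ).choose_spec γ

omit [Γ.FiniteIndex] in
lemma killsEP_comp_homProj (l : HomologyLattice Γ →+ A) : KillsEP Γ (l.comp (homProj Γ)) :=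
  fun γ hγ => by simp [killsEP_homProj Γ γ hγ]

lemma homHomologyLattice_ext {l l' : HomologyLattice Γ →+ A}
    (h : ∀ γ, l (homProj Γ γ) = l' (homProj Γ γ)) : l = l' := by
  ext v
  obtain ⟨γ, rfl⟩ := homProj_surjective Γ v
  exact h γ

/-- Homomorphisms killing `±1`, parabolic and elliptic elements are the homomorphisms out of the
homology lattice. -/
noncomputable def killsEPEquiv (A : Type*) [AddCommGroup A] :
    {φ : Additive Γ →+ A // KillsEP Γ φ} ≃ (HomologyLattice Γ →+ A) where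
  toFun φ := homProjLift Γ φ.2
  invFun l := ⟨l.comp (homProj Γ), killsEP_comp_homProj Γ l⟩
  left_inv φ := Subtype.ext (AddMonoidHom.ext fun γ => by simp)
  right_inv l := homHomologyLattice_ext Γ fun γ => by simp

end Lift

end FermatAgent.ModCurveGroup
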