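import Mathlib

/-!
# Elementary facts on cycles of permutations of finite sets
-/

namespace FermatAgent.ModCurveGroup

open Equiv.Perm

variable {X : Type*}

/-- The cycles (including the trivial ones) of a permutation. -/
abbrev CycleClass (σ : Equiv.Perm X) : Type _ := Quotient (SameCycle.setoid σ)

/-- The cycle of a point. -/
def cycleClassMk (σ : Equiv.Perm X) (x : X) : CycleClass σ := Quotient.mk (SameCycle.setoid σ) x

lemma cycleClassMk_eq_iff {σ : Equiv.Perm X} {x y : X} :
    cycleClassMk σ x = cycleClassMk σ y ↔ σ.SameCycle x y :=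
  Quotient.eq (r := SameCycle.setoid σ)

lemma cycleClassMk_surjective (σ : Equiv.Perm X) : Function.Surjective (cycleClassMk σ) :=
  Quotient.mk_surjective

lemma cycleClassMk_apply (σ : Equiv.Perm X) (x : X) :
    cycleClassMk σ (σ x) = cycleClassMk σ x := by
  rw [cycleClassMk_eq_iff]
  exact SameCycle.symm ⟨1, by simp⟩

lemma invariant_of_cycleClassMk_eq {A : Type*} [Finite X] {σ : Equiv.Perm X} {a : X → A}
    (ha : ∀ x, a (σ x) = a x) {x y : X} (h : cycleClassMk σ x = cycleClassMk σ y) : a x = a y := by
  obtain ⟨i, -, rfl⟩ := (cycleClassMk_eq_iff.mp h).exists_pow_eq'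
  clear h
  induction i with
  | zero => simp
  | succ i ih => rw [pow_succ', mul_apply, ha, ih]

noncomputable instance [Finite X] (σ : Equiv.Perm X) : Fintype (CycleClass σ) :=
  Fintype.ofFinite _

variable [Fintype X] {σ : Equiv.Perm X}

/-- The fibre of `cycleClassMk`. -/
noncomputable def cycleFiber (σ : Equiv.Perm X) (v : CycleClass σ) : Finset X := by
  classical exact Finset.univ.filter (fun x => cycleClassMk σ x = v)

@[simp]
lemma mem_cycleFiber {v : CycleClass σ} {x : X} : x ∈ cycleFiber σ v ↔ cycleClassMk σ x = v := by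
  simp [cycleFiber]

/-- Sum of a function over each cycle. -/
noncomputable def cycleSum (σ : Equiv.Perm X) (A : Type*) [AddCommGroup A] :
    (X → A) →ₗ[ℤ] (CycleClass σ → A) where
  toFun c v := ∑ x ∈ cycleFiber σ v, c x
  map_add' c d := by ext v; simp [Finset.sum_add_distrib]
  map_smul' m c := by ext v; simp [Finset.smul_sum]

@[simp]
lemma cycleSum_apply (σ : Equiv.Perm X) {A : Type*} [AddCommGroup A] (c : X → A)
    (v : CycleClass σ) : cycleSum σ A c v = ∑ x ∈ cycleFiber σ v, c x := rfl

lemma cycleFiber_of_sq [DecidableEq X] (h : ∀ x, σ (σ x) = x) (x : X) :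
    cycleFiber σ (cycleClassMk σ x) = {x, σ x} := by
  ext y
  simp only [mem_cycleFiber, Finset.mem_insert, Finset.mem_singleton]
  constructor
  · intro hy
    obtain ⟨i, -, rfl⟩ := (cycleClassMk_eq_iff.mp hy.symm).exists_pow_eq'
    clear hy
    induction i with
    | zero => simp
    | succ i ih => rw [pow_succ', mul_apply]; rcases ih with e | e <;> simp [e, h]
  · rintro (rfl | rfl)
    · rfl
    · exact cycleClassMk_apply σ x

lemma cycleFiber_of_cube [DecidableEq X] (h : ∀ x, σ (σ (σ x)) = x) (x : X) :
    cycleFiber σ (cycleClassMk σ x) = {x, σ x, σ (σ x)} := by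
  ext y
  simp only [mem_cycleFiber, Finset.mem_insert, Finset.mem_singleton]
  constructor
  · intro hy
    obtain ⟨i, -, rfl⟩ := (cycleClassMk_eq_iff.mp hy.symm).exists_pow_eq'
    clear hy
    induction i with
    | zero => simp
    | succ i ih => rw [pow_succ', mul_apply]; rcases ih with e | e | e <;> simp [e, h]
  · rintro (rfl | rfl | rfl)
    · rfl
    · exact cycleClassMk_apply σ x
    · rw [cycleClassMk_apply, cycleClassMk_apply]

/-- For an involution the vanishing of the orbit sums can be tested pointwise. -/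
lemma cycleSum_eq_zero_iff_of_sq (h : ∀ x, σ (σ x) = x) (c : X → ℤ) :
    cycleSum σ ℤ c = 0 ↔ ∀ x, c x + c (σ x) = 0 := by
  classical
  constructor
  · intro hc x
    have := congrFun hc (cycleClassMk σ x)
    rw [cycleSum_apply, cycleFiber_of_sq h x] at this
    by_cases e : σ x = x
    · simp [e] at this; simp [e, this]
    · simpa [Finset.sum_pair (Ne.symm e)] using this
  · intro hc
    funext v
    obtain ⟨x, rfl⟩ := cycleClassMk_surjective σ v
    rw [cycleSum_apply, cycleFiber_of_sq h x, Pi.zero_apply]
    by_cases e : σ x = x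
    · have := hc x
      rw [e] at this
      simp [e]; omega
    · rw [Finset.sum_pair (Ne.symm e)]; exact hc x

omit [Fintype X] in
lemma cube_fixed_or_distinct (h : ∀ x, σ (σ (σ x)) = x) (x : X) :
    σ x = x ∨ (x ≠ σ x ∧ x ≠ σ (σ x) ∧ σ x ≠ σ (σ x)) := by
  by_cases e : σ x = x
  · exact Or.inl e
  refine Or.inr ⟨fun e' => e e'.symm, fun e' => ?_, fun e' => e (σ.injective e').symm⟩
  apply e
  have := congrArg σ e'
  rw [h] at this
  exact this

/-- For a permutation of order three the vanishing of the orbit sums can be tested pointwise. -/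
lemma cycleSum_eq_zero_iff_of_cube (h : ∀ x, σ (σ (σ x)) = x) (c : X → ℤ) :
    cycleSum σ ℤ c = 0 ↔ ∀ x, c x + c (σ x) + c (σ (σ x)) = 0 := by
  classical
  have key : ∀ x, σ x = x ∧ ∑ y ∈ cycleFiber σ (cycleClassMk σ x), c y = c x ∨
      ∑ y ∈ cycleFiber σ (cycleClassMk σ x), c y = c x + c (σ x) + c (σ (σ x)) := by
    intro x
    rw [cycleFiber_of_cube h x]
    rcases cube_fixed_or_distinct h x with e | ⟨e1, e2, e3⟩
    · exact Or.inl ⟨e, by simp [e]⟩
    · refine Or.inr ?_
      rw [Finset.sum_insert (by simp [e1, e2]), Finset.sum_pair e3, add_assoc]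
  constructor
  · intro hc x
    have := congrFun hc (cycleClassMk σ x)
    rw [cycleSum_apply] at this
    rcases key x with ⟨e, k⟩ | k <;> rw [k] at this
    · simp only [e]; simp only [Pi.zero_apply] at this; omega
    · exact this
  · intro hc
    funext v
    obtain ⟨x, rfl⟩ := cycleClassMk_surjective σ v
    rw [cycleSum_apply, Pi.zero_apply]
    rcases key x with ⟨e, k⟩ | k <;> rw [k]
    · have := hc x
      rw [e, e] at this
      omega
    · exact hc x

lemma card_eq_sum_cycleFiber (σ : Equiv.Perm X) :
    Fintype.card X = ∑ v : CycleClass σ, (cycleFiber σ v).card := by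
  classical
  rw [← Finset.card_univ, Finset.card_eq_sum_card_fiberwise (f := cycleClassMk σ)
    (t := Finset.univ) (fun x _ => Finset.mem_univ _)]
  simp [cycleFiber]

lemma card_fixed_eq_sum [DecidableEq X] (σ : Equiv.Perm X) :
    Nat.card {x // σ x = x} =
      ∑ v : CycleClass σ, ((cycleFiber σ v).filter (fun x => σ x = x)).card := by
  classical
  rw [Nat.card_eq_fintype_card, Fintype.card_subtype,
    Finset.card_eq_sum_card_fiberwise (f := cycleClassMk σ)
    (t := Finset.univ) (fun x _ => Finset.mem_univ _)]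
  refine Finset.sum_congr rfl fun v _ => ?_
  congr 1
  ext x
  simp [and_comm]

/-- Number of cycles of an involution. -/
lemma two_mul_card_cycleClass (h : ∀ x, σ (σ x) = x) :
    2 * Nat.card (CycleClass σ) = Fintype.card X + Nat.card {x // σ x = x} := by
  classical
  rw [card_eq_sum_cycleFiber σ, card_fixed_eq_sum, ← Finset.sum_add_distrib,
    Nat.card_eq_fintype_card]
  have : ∀ v : CycleClass σ,
      (cycleFiber σ v).card + ((cycleFiber σ v).filter (fun x => σ x = x)).card = 2 := by
    intro v
    obtain ⟨x, rfl⟩ := cycleClassMk_surjective σ v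
    rw [cycleFiber_of_sq h x]
    by_cases e : σ x = x
    · simp [e, Finset.filter_singleton]
    · simp [Finset.filter_insert, Finset.filter_singleton, e, h, Ne.symm e]
  simp [this, mul_comm]

/-- Number of cycles of a permutation of order three. -/
lemma three_mul_card_cycleClass (h : ∀ x, σ (σ (σ x)) = x) :
    3 * Nat.card (CycleClass σ) = Fintype.card X + 2 * Nat.card {x // σ x = x} := by
  classical
  rw [card_eq_sum_cycleFiber σ, card_fixed_eq_sum, Finset.mul_sum, ← Finset.sum_add_distrib,
    Nat.card_eq_fintype_card]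
  have : ∀ v : CycleClass σ,
      (cycleFiber σ v).card + 2 * ((cycleFiber σ v).filter (fun x => σ x = x)).card = 3 := by
    intro v
    obtain ⟨x, rfl⟩ := cycleClassMk_surjective σ v
    rw [cycleFiber_of_cube h x]
    rcases cube_fixed_or_distinct h x with e | ⟨e1, e2, e3⟩
    · simp [e, Finset.filter_singleton]
    · have f3 : σ (σ (σ x)) ≠ σ (σ x) := by rw [h]; exact e2
      simp [Finset.filter_insert, Finset.filter_singleton, e1.symm, e3.symm, f3, e1, e2, e3]
  simp [this, mul_comm]

/-- The sign of a permutation in terms of its number of cycles. -/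
lemma sign_eq_neg_one_pow_card_cycleClass [DecidableEq X] (σ : Equiv.Perm X) :
    sign σ = (-1 : ℤˣ) ^ (Fintype.card X + Nat.card (CycleClass σ)) := by
  classical
  let f : X → Function.fixedPoints σ ⊕ σ.cycleFactorsFinset := fun x =>
    if h : σ x = x then Sum.inl ⟨x, h⟩ else
      Sum.inr ⟨σ.cycleOf x, cycleOf_mem_cycleFactorsFinset_iff.mpr (mem_support.mpr h)⟩
  have hf : ∀ x y, σ.SameCycle x y ↔ f x = f y := by
    intro x y
    constructor
    · intro h
      by_cases hx : σ x = x
      · have : x = y := h.eq_of_left hx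
        rw [this]
      · have hy : σ y ≠ y := fun hy => hx (h.apply_eq_self_iff.mpr hy)
        simp [f, hx, hy, h.cycleOf_eq]
    · intro h
      by_cases hx : σ x = x
      · by_cases hy : σ y = y
        · simp [f, hx, hy] at h; obtain rfl : x = y := by simpa using h
          exact SameCycle.refl σ x
        · simp [f, hx, hy] at h
      · by_cases hy : σ y = y
        · simp [f, hx, hy] at h
        · simp [f, hx, hy] at h
          have hyx : y ∈ (σ.cycleOf x).support := by
            rw [h]; exact mem_support_cycleOf_iff.mpr ⟨SameCycle.refl σ y, mem_support.mpr hy⟩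
          exact (mem_support_cycleOf_iff.mp hyx).1
  let F : CycleClass σ → Function.fixedPoints σ ⊕ σ.cycleFactorsFinset :=
    Quotient.lift f (fun x y h => (hf x y).mp h)
  have hbij : Function.Bijective F := by
    constructor
    · intro a b
      induction a using Quotient.inductionOn
      induction b using Quotient.inductionOn
      intro h
      exact Quotient.sound ((hf _ _).mpr h)
    · rintro (⟨x, hx⟩ | ⟨c, hc⟩)
      · exact ⟨cycleClassMk σ x, by simp [F, f, cycleClassMk, Function.mem_fixedPoints_iff.mp hx]⟩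
      · obtain ⟨hcyc, hsupp⟩ := mem_cycleFactorsFinset_iff.mp hc
        obtain ⟨x, hx, -⟩ := hcyc
        have hxs : x ∈ c.support := mem_support.mpr hx
        refine ⟨cycleClassMk σ x, ?_⟩
        have hσx : σ x ≠ x := by rw [← hsupp x hxs]; exact hx
        simp [F, f, cycleClassMk, hσx, (cycle_is_cycleOf hxs hc).symm]
  have hcard := Nat.card_congr (Equiv.ofBijective F hbij)
  rw [Nat.card_sum, Nat.card_eq_fintype_card (α := Function.fixedPoints σ), card_fixedPoints,
    Nat.card_eq_fintype_card (α := ↥σ.cycleFactorsFinset), Fintype.card_coe] at hcard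
  have hle := σ.sum_cycleType_le
  have hc2 : Multiset.card σ.cycleType = σ.cycleFactorsFinset.card := by
    simp [cycleType_def]
  rw [sign_of_cycleType, hcard, hc2]
  have : Fintype.card X + (Fintype.card X - σ.cycleType.sum + σ.cycleFactorsFinset.card) =
      (σ.cycleType.sum + σ.cycleFactorsFinset.card) + 2 * (Fintype.card X - σ.cycleType.sum) := by
    omega
  rw [this, pow_add _ _ (2 * _), pow_mul]
  simp

/-- Solve `a (σ x) - a x = c x` for an involution. -/
lemma exists_sub_eq_of_sq {A : Type*} [AddCommGroup A] (h : ∀ x, σ (σ x) = x) (c : X → A)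
    (h0 : ∀ x, c x + c (σ x) = 0) (hfix : ∀ x, σ x = x → c x = 0) :
    ∃ a : X → A, ∀ x, a (σ x) - a x = c x := by
  classical
  let rk := Fintype.equivFin X
  refine ⟨fun x => if rk x < rk (σ x) then -c x else 0, fun x => ?_⟩
  rcases lt_trichotomy (rk x) (rk (σ x)) with hl | he | hl
  · simp [h, hl, hl.not_gt]
  · have e : σ x = x := (rk.injective he).symm
    simp [e, hfix x e]
  · simp [h, hl, hl.not_gt]
    rw [neg_eq_iff_add_eq_zero, add_comm]
    exact h0 x

/-- Solve `a (σ x) - a x = c x` for a permutation of order three. -/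
lemma exists_sub_eq_of_cube {A : Type*} [AddCommGroup A] (h : ∀ x, σ (σ (σ x)) = x) (c : X → A)
    (h0 : ∀ x, c x + c (σ x) + c (σ (σ x)) = 0) (hfix : ∀ x, σ x = x → c x = 0) :
    ∃ a : X → A, ∀ x, a (σ x) - a x = c x := by
  classical
  let m : X → X := fun x => (cycleClassMk σ x).out
  have hm : ∀ x, m (σ x) = m x := fun x => by simp [m, cycleClassMk_apply]
  have hm' : ∀ x, m x = x ∨ m x = σ x ∨ m x = σ (σ x) := fun x => by
    have : m x ∈ cycleFiber σ (cycleClassMk σ x) := by simp [m, cycleClassMk]
    rw [cycleFiber_of_cube h x] at this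
    simpa using this
  refine ⟨fun x => if m x = x then 0 else if m x = σ (σ x) then c (m x) else -c x, fun x => ?_⟩
  rcases cube_fixed_or_distinct h x with e | ⟨e1, e2, e3⟩
  · simp [e, hfix x e]
  rcases hm' x with k | k | k
  · simp [hm, k, h, e1]
  · simp [hm, k, e1.symm, e3]
  · simp [hm, k, h, e2.symm, e3.symm]
    have := h0 x
    have hx : c x = -c (σ x) - c (σ (σ x)) := by
      rw [eq_sub_iff_add_eq, eq_neg_iff_add_eq_zero, ← this]; abel
    exact hx.symm

/-- Summation by parts along a permutation. -/
lemma sum_smul_sub_eq {A : Type*} [AddCommGroup A] (τ : Equiv.Perm X) (w : X → ℤ) (F : X → A) :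
    ∑ x, w x • (F (τ x) - F x) = ∑ x, (w (τ.symm x) - w x) • F x := by
  simp only [smul_sub, sub_smul, Finset.sum_sub_distrib]
  congr 1
  exact Fintype.sum_equiv τ _ _ (fun x => by simp)

end FermatAgent.ModCurveGroup
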