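import Fermat.Agent.ModCurve.Group.PingPong
import Fermat.Agent.ModCurve.Group.Orbits

/-!
# The homology lattice of a finite index subgroup `Γ` of `SL(2,ℤ)` containing `-1`

`X = SL(2,ℤ) ⧸ Γ` is the set of edges of a bipartite graph whose vertices are the orbits of
`S` and of `R₃ = T * S`; its faces are the orbits of `T`. `HomologyLattice Γ` is the quotient of
the cycle lattice by the boundaries of the faces, and `homProj Γ : Additive Γ →+ HomologyLattice Γ`
is universal among homomorphisms killing all elements with `trace ^ 2 ≤ 4`.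
-/

namespace FermatAgent.ModCurveGroup

open ModularGroup
open scoped MatrixGroups

variable (Γ : Subgroup SL(2, ℤ))

/-- Subgroups containing `-1`. -/
class ContainsNegOne : Prop where
  /-- `-1 ∈ Γ`. -/
  neg_one_mem : (-1 : SL(2, ℤ)) ∈ Γ

instance (N : ℕ) : ContainsNegOne (CongruenceSubgroup.Gamma0 N) :=
  ⟨by simp [CongruenceSubgroup.Gamma0_mem]⟩

/-- The coset space, i.e. the edges of the dessin. -/
abbrev Edge : Type := SL(2, ℤ) ⧸ Γ

noncomputable instance [Γ.FiniteIndex] : Fintype (Edge Γ) := Subgroup.fintypeQuotientOfFiniteIndex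

/-- The base point. -/
def baseEdge : Edge Γ := ((1 : SL(2, ℤ)) : Edge Γ)

lemma smul_baseEdge (g : SL(2, ℤ)) : g • baseEdge Γ = (g : Edge Γ) := by
  simp [baseEdge]

lemma smul_baseEdge_of_mem {γ : SL(2, ℤ)} (h : γ ∈ Γ) : γ • baseEdge Γ = baseEdge Γ := by
  rw [smul_baseEdge, baseEdge, QuotientGroup.eq]
  simp [h]

lemma smul_edge_eq_iff (g h : SL(2, ℤ)) :
    g • (h : Edge Γ) = (h : Edge Γ) ↔ h⁻¹ * g * h ∈ Γ := by
  rw [MulAction.Quotient.smul_coe, smul_eq_mul, QuotientGroup.eq]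
  rw [show (g * h)⁻¹ * h = (h⁻¹ * g * h)⁻¹ by group]
  exact inv_mem_iff

variable [ContainsNegOne Γ]

@[simp]
lemma neg_one_smul_edge (x : Edge Γ) : (-1 : SL(2, ℤ)) • x = x := by
  induction x using QuotientGroup.induction_on with
  | _ h =>
    rw [smul_edge_eq_iff]
    simpa using ContainsNegOne.neg_one_mem (Γ := Γ)

lemma S_smul_S_smul (x : Edge Γ) : (S : SL(2, ℤ)) • (S : SL(2, ℤ)) • x = x := by
  rw [smul_smul, S_mul_S, neg_one_smul_edge]

lemma R₃_smul_cube (x : Edge Γ) : R₃ • R₃ • R₃ • x = x := by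
  rw [smul_smul, smul_smul, show R₃ * R₃ * R₃ = -1 from by rw [← R₃_pow_three]; simp [pow_succ],
    neg_one_smul_edge]

lemma T_smul_eq (x : Edge Γ) : (T : SL(2, ℤ)) • x = R₃ • (S : SL(2, ℤ)) • x := by
  rw [T_eq_neg_R₃_mul_S, ← neg_one_mul (R₃ * S), mul_smul, neg_one_smul_edge, mul_smul]

lemma R₃_smul_eq (x : Edge Γ) : R₃ • x = (T : SL(2, ℤ)) • (S : SL(2, ℤ)) • x := by
  rw [T_smul_eq, S_smul_S_smul]

/-- `S` as a permutation of the edges. -/
def permS : Equiv.Perm (Edge Γ) := MulAction.toPerm (S : SL(2, ℤ))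

/-- `R₃` as a permutation of the edges. -/
def permR : Equiv.Perm (Edge Γ) := MulAction.toPerm R₃

/-- `T` as a permutation of the edges. -/
def permT : Equiv.Perm (Edge Γ) := MulAction.toPerm (T : SL(2, ℤ))

omit [ContainsNegOne Γ] in
@[simp] lemma permS_apply (x : Edge Γ) : permS Γ x = (S : SL(2, ℤ)) • x := rfl

omit [ContainsNegOne Γ] in
@[simp] lemma permR_apply (x : Edge Γ) : permR Γ x = R₃ • x := rfl

omit [ContainsNegOne Γ] in
@[simp] lemma permT_apply (x : Edge Γ) : permT Γ x = (T : SL(2, ℤ)) • x := rfl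

omit [ContainsNegOne Γ] in
/-- A function invariant under `S` and `T` is constant. -/
lemma eq_const_of_invariant {A : Type*} (a : Edge Γ → A)
    (hS : ∀ x, a ((S : SL(2, ℤ)) • x) = a x) (hT : ∀ x, a ((T : SL(2, ℤ)) • x) = a x)
    (x : Edge Γ) : a x = a (baseEdge Γ) := by
  have key : ∀ g : SL(2, ℤ), ∀ x, a (g • x) = a x := by
    refine SL2Z_induction (P := fun g => ∀ x, a (g • x) = a x) hS ?_ (by simp) ?_ ?_
    · intro x; rw [R₃, mul_smul, hT, hS]
    · intro g h hg hh x; rw [mul_smul, hg, hh]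
    · intro g hg x; simpa using (hg (g⁻¹ • x)).symm
  induction x using QuotientGroup.induction_on with
  | _ h => rw [← smul_baseEdge]; exact key h _

section Chains

/-- The standard basis vector of an edge. -/
noncomputable def edgeVec (x : Edge Γ) : Edge Γ → ℤ := by
  classical exact Pi.single x 1

omit [ContainsNegOne Γ] in
lemma edgeVec_apply (x y : Edge Γ) [Decidable (y = x)] :
    edgeVec Γ x y = if y = x then 1 else 0 := by
  classical
  simp [edgeVec, Pi.single_apply]

/-- Sum over `R₃`-orbits. -/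
def rSum : (Edge Γ → ℤ) →ₗ[ℤ] (Edge Γ → ℤ) where
  toFun c z := c z + c (R₃ • z) + c (R₃ • R₃ • z)
  map_add' c d := by ext z; simp; ring
  map_smul' m c := by ext z; simp; ring

/-- Sum over `S`-orbits. -/
def sSum : (Edge Γ → ℤ) →ₗ[ℤ] (Edge Γ → ℤ) where
  toFun c z := c z + c ((S : SL(2, ℤ)) • z)
  map_add' c d := by ext z; simp; ring
  map_smul' m c := by ext z; simp; ring

/-- Vertex class of an edge. -/
noncomputable def rVertex (x : Edge Γ) : Edge Γ → ℤ := rSum Γ (edgeVec Γ x)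

lemma rVertex_R₃ (x : Edge Γ) : rVertex Γ (R₃ • x) = rVertex Γ x := by
  classical
  ext z
  have h1 : (R₃ • z = R₃ • x) ↔ z = x := smul_left_cancel_iff R₃
  have h2 : (R₃ • R₃ • z = R₃ • x) ↔ R₃ • z = x := smul_left_cancel_iff R₃
  have h3 : (z = R₃ • x) ↔ R₃ • R₃ • z = x := by
    constructor
    · rintro rfl; exact R₃_smul_cube Γ x
    · intro h; rw [← h, R₃_smul_cube]
  simp only [rVertex, rSum, LinearMap.coe_mk, AddHom.coe_mk, edgeVec_apply, h1, h2, h3]
  ring

/-- The cycle lattice. -/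
def cycleLattice : Submodule ℤ (Edge Γ → ℤ) := LinearMap.ker (sSum Γ) ⊓ LinearMap.ker (rSum Γ)

omit [ContainsNegOne Γ] in
lemma mem_cycleLattice {c : Edge Γ → ℤ} : c ∈ cycleLattice Γ ↔
    (∀ x, c x + c ((S : SL(2, ℤ)) • x) = 0) ∧
      ∀ x, c x + c (R₃ • x) + c (R₃ • R₃ • x) = 0 := by
  simp [cycleLattice, sSum, rSum, funext_iff]

/-- The boundary map from functions constant on faces. -/
def faceBoundary : (Edge Γ → ℤ) →ₗ[ℤ] (Edge Γ → ℤ) where
  toFun a z := a ((S : SL(2, ℤ)) • z) - a z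
  map_add' c d := by ext z; simp; ring
  map_smul' m c := by ext z; simp; ring

omit [ContainsNegOne Γ] in
@[simp]
lemma faceBoundary_apply (a : Edge Γ → ℤ) (z : Edge Γ) :
    faceBoundary Γ a z = a ((S : SL(2, ℤ)) • z) - a z := rfl

/-- Functions constant on the faces. -/
def faceFunctions : Submodule ℤ (Edge Γ → ℤ) where
  carrier := {a | ∀ x, a ((T : SL(2, ℤ)) • x) = a x}
  add_mem' ha hb x := by simp [ha x, hb x]
  zero_mem' _ := rfl
  smul_mem' m a ha x := by simp [ha x]

lemma faceBoundary_mem_cycleLattice {a : Edge Γ → ℤ} (ha : a ∈ faceFunctions Γ) :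
    faceBoundary Γ a ∈ cycleLattice Γ := by
  rw [mem_cycleLattice]
  refine ⟨fun x => by simp [S_smul_S_smul], fun x => ?_⟩
  have key : ∀ z, a ((S : SL(2, ℤ)) • z) = a (R₃ • z) := fun z => by
    rw [R₃_smul_eq, ha]
  simp [key, R₃_smul_cube]

/-- The submodule of face boundaries inside the cycle lattice. -/
def faceLattice : Submodule ℤ (cycleLattice Γ) :=
  ((faceFunctions Γ).map (faceBoundary Γ)).comap (cycleLattice Γ).subtype

/-- `H₁` of the compactified modular curve attached to `Γ`. -/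
abbrev HomologyLattice : Type := cycleLattice Γ ⧸ faceLattice Γ

end Chains

section Universal

/-- A skew permutation of `Edge Γ × (Edge Γ → ℤ)`. -/
def skewPerm (f : Equiv.Perm (Edge Γ)) (k : Edge Γ → (Edge Γ → ℤ)) :
    Equiv.Perm (Edge Γ × (Edge Γ → ℤ)) where
  toFun p := (f p.1, p.2 + k p.1)
  invFun p := (f.symm p.1, p.2 - k (f.symm p.1))
  left_inv p := by simp
  right_inv p := by simp

omit [ContainsNegOne Γ] in
@[simp] lemma skewPerm_apply (f : Equiv.Perm (Edge Γ)) (k : Edge Γ → (Edge Γ → ℤ))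
    (p : Edge Γ × (Edge Γ → ℤ)) : skewPerm Γ f k p = (f p.1, p.2 + k p.1) := rfl

lemma exists_universalCocycle :
    ∃ U : SL(2, ℤ) → Edge Γ → (Edge Γ → ℤ),
      (∀ g h x, U (g * h) x = U g (h • x) + U h x) ∧
      (∀ x, U S x = edgeVec Γ ((S : SL(2, ℤ)) • x) - edgeVec Γ x) ∧
      (∀ x, U R₃ x = 0) ∧ (∀ x, U (-1) x = 0) := by
  classical
  let s := skewPerm Γ (permS Γ)
    (fun x => edgeVec Γ ((S : SL(2, ℤ)) • x) - edgeVec Γ x)
  let r := skewPerm Γ (permR Γ) 0
  have hs : s ^ 2 = 1 := by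
    ext1 ⟨x, c⟩
    simp [s, pow_two, S_smul_S_smul]
    abel
  have hr : r ^ 3 = 1 := by
    ext1 ⟨x, c⟩
    simp [r, pow_succ, R₃_smul_cube]
  obtain ⟨F, hFS, hFR, hFneg⟩ := exists_hom_of_pow_eq_one s r hs hr
  have hk : ∀ g, ∃ k : Edge Γ → (Edge Γ → ℤ), ∀ x c, F g (x, c) = (g • x, c + k x) := by
    refine SL2Z_induction (P := fun g =>
      ∃ k : Edge Γ → (Edge Γ → ℤ), ∀ x c, F g (x, c) = (g • x, c + k x)) ?_ ?_ ?_ ?_ ?_
    · exact ⟨fun x => edgeVec Γ ((S : SL(2, ℤ)) • x) - edgeVec Γ x, fun x c => by rw [hFS]; rfl⟩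
    · exact ⟨0, fun x c => by rw [hFR]; rfl⟩
    · exact ⟨0, fun x c => by simp⟩
    · rintro g h ⟨k, hk⟩ ⟨l, hl⟩
      exact ⟨fun x => l x + k (h • x), fun x c => by
        rw [map_mul, Equiv.Perm.mul_apply, hl, hk, mul_smul, add_assoc]⟩
    · rintro g ⟨k, hk⟩
      refine ⟨fun x => -k (g⁻¹ • x), fun x c => ?_⟩
      rw [map_inv, Equiv.Perm.inv_eq_iff_eq, hk]
      simp
  choose U hU using hk
  refine ⟨U, fun g h x => ?_, fun x => ?_, fun x => ?_, fun x => ?_⟩
  · have := hU (g * h) x 0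
    rw [map_mul, Equiv.Perm.mul_apply, hU, hU, mul_smul] at this
    simpa [add_comm, eq_comm] using (Prod.ext_iff.mp this).2
  · have := hU S x 0
    rw [hFS] at this
    simpa [s, eq_comm] using (Prod.ext_iff.mp this).2
  · have := hU R₃ x 0
    rw [hFR] at this
    simpa [r, eq_comm] using (Prod.ext_iff.mp this).2
  · have := hU (-1) x 0
    rw [hFneg] at this
    simpa [eq_comm] using (Prod.ext_iff.mp this).2

/-- The universal cocycle: the chain of a path from `x` to `g • x`. -/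
noncomputable def pathChain : SL(2, ℤ) → Edge Γ → (Edge Γ → ℤ) :=
  (exists_universalCocycle Γ).choose

lemma pathChain_mul (g h : SL(2, ℤ)) (x : Edge Γ) :
    pathChain Γ (g * h) x = pathChain Γ g (h • x) + pathChain Γ h x :=
  (exists_universalCocycle Γ).choose_spec.1 g h x

lemma pathChain_S (x : Edge Γ) :
    pathChain Γ S x = edgeVec Γ ((S : SL(2, ℤ)) • x) - edgeVec Γ x :=
  (exists_universalCocycle Γ).choose_spec.2.1 x

@[simp]
lemma pathChain_R₃ (x : Edge Γ) : pathChain Γ R₃ x = 0 :=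
  (exists_universalCocycle Γ).choose_spec.2.2.1 x

@[simp]
lemma pathChain_neg_one (x : Edge Γ) : pathChain Γ (-1) x = 0 :=
  (exists_universalCocycle Γ).choose_spec.2.2.2 x

@[simp]
lemma pathChain_one (x : Edge Γ) : pathChain Γ 1 x = 0 := by
  have := pathChain_mul Γ 1 1 x
  simpa using this

lemma pathChain_inv (g : SL(2, ℤ)) (x : Edge Γ) :
    pathChain Γ g⁻¹ x = -pathChain Γ g (g⁻¹ • x) := by
  have := pathChain_mul Γ g g⁻¹ x
  rw [mul_inv_cancel, pathChain_one] at this
  exact eq_neg_of_add_eq_zero_right this.symm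

lemma pathChain_T (x : Edge Γ) :
    pathChain Γ T x = edgeVec Γ ((S : SL(2, ℤ)) • x) - edgeVec Γ x := by
  rw [T_eq_neg_R₃_mul_S, ← neg_one_mul (R₃ * S), pathChain_mul, pathChain_mul, pathChain_S]
  simp

/-- The defining boundary property of `pathChain`. -/
lemma sums_pathChain (g : SL(2, ℤ)) : ∀ x, sSum Γ (pathChain Γ g x) = 0 ∧
    rSum Γ (pathChain Γ g x) = rVertex Γ (g • x) - rVertex Γ x := by
  refine SL2Z_induction (P := fun g => ∀ x, sSum Γ (pathChain Γ g x) = 0 ∧
    rSum Γ (pathChain Γ g x) = rVertex Γ (g • x) - rVertex Γ x) ?_ ?_ ?_ ?_ ?_ g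
  · intro x
    rw [pathChain_S, map_sub, map_sub]
    refine ⟨?_, rfl⟩
    classical
    have hSS := S_smul_S_smul Γ x
    ext z
    have h1 : ((S : SL(2, ℤ)) • z = (S : SL(2, ℤ)) • x) ↔ z = x := smul_left_cancel_iff _
    have h2 : (z = (S : SL(2, ℤ)) • x) ↔ (S : SL(2, ℤ)) • z = x := by
      constructor
      · rintro rfl; exact S_smul_S_smul Γ x
      · intro h; rw [← h, S_smul_S_smul]
    simp only [sSum, LinearMap.coe_mk, AddHom.coe_mk, Pi.sub_apply, Pi.zero_apply, edgeVec_apply,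
      h1, h2]
    ring
  · intro x
    simp [rVertex_R₃]
  · intro x; simp
  · intro g h hg hh x
    rw [pathChain_mul, map_add, map_add, (hg _).1, (hh x).1, (hg _).2, (hh x).2, mul_smul]
    exact ⟨add_zero 0, by abel⟩
  · intro g hg x
    rw [pathChain_inv, map_neg, map_neg, (hg _).1, (hg _).2, smul_inv_smul]
    exact ⟨neg_zero, by abel⟩

lemma pathChain_mem {γ : SL(2, ℤ)} {x : Edge Γ} (h : γ • x = x) :
    pathChain Γ γ x ∈ cycleLattice Γ := by
  obtain ⟨h1, h2⟩ := sums_pathChain Γ γ x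
  rw [h, sub_self] at h2
  exact ⟨h1, h2⟩

/-- The cycle of an element of `Γ`. -/
noncomputable def loopCycle : Additive Γ →+ cycleLattice Γ where
  toFun γ := ⟨pathChain Γ (Additive.toMul γ : Γ) (baseEdge Γ),
    pathChain_mem Γ (smul_baseEdge_of_mem Γ (Additive.toMul γ).2)⟩
  map_zero' := Subtype.ext (by simp)
  map_add' γ δ := Subtype.ext (by
    simp [pathChain_mul, smul_baseEdge_of_mem Γ (Additive.toMul δ).2])

lemma loopCycle_apply (γ : Γ) :
    (loopCycle Γ (Additive.ofMul γ) : Edge Γ → ℤ) = pathChain Γ γ (baseEdge Γ) := rfl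

/-- The universal homomorphism killing elliptic and parabolic elements. -/
noncomputable def homProj : Additive Γ →+ HomologyLattice Γ :=
  (faceLattice Γ).mkQ.toAddMonoidHom.comp (loopCycle Γ)

/-- A section of `SL(2,ℤ) → Edge Γ`. -/
noncomputable def edgeSection (x : Edge Γ) : SL(2, ℤ) := Quotient.out x

omit [ContainsNegOne Γ] in
lemma edgeSection_smul (x : Edge Γ) : edgeSection Γ x • baseEdge Γ = x := by
  rw [smul_baseEdge]
  exact QuotientGroup.out_eq' x

omit [ContainsNegOne Γ] in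
lemma sectionConj_mem (g : SL(2, ℤ)) (x : Edge Γ) :
    (edgeSection Γ (g • x))⁻¹ * g * edgeSection Γ x ∈ Γ := by
  have h : (((edgeSection Γ (g • x))⁻¹ * g * edgeSection Γ x : SL(2, ℤ)) : Edge Γ) = baseEdge Γ := by
    rw [← smul_baseEdge, mul_smul, mul_smul, edgeSection_smul, inv_smul_eq_iff, edgeSection_smul]
  rw [baseEdge, QuotientGroup.eq] at h
  simpa [mul_assoc] using inv_mem h

/-- The element of `Γ` attached to `g` and a coset. -/
noncomputable def sectionConj (g : SL(2, ℤ)) (x : Edge Γ) : Γ :=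
  ⟨_, sectionConj_mem Γ g x⟩

omit [ContainsNegOne Γ] in
lemma coe_sectionConj (g : SL(2, ℤ)) (x : Edge Γ) :
    (sectionConj Γ g x : SL(2, ℤ)) = (edgeSection Γ (g • x))⁻¹ * g * edgeSection Γ x := rfl

lemma loopCycle_sectionConj (g : SL(2, ℤ)) (x : Edge Γ) :
    (loopCycle Γ (Additive.ofMul (sectionConj Γ g x)) : Edge Γ → ℤ) =
      pathChain Γ g x - (pathChain Γ (edgeSection Γ (g • x)) (baseEdge Γ) -
        pathChain Γ (edgeSection Γ x) (baseEdge Γ)) := by
  rw [loopCycle_apply, coe_sectionConj, mul_assoc, pathChain_mul, pathChain_mul, mul_smul,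
    edgeSection_smul, pathChain_inv]
  have : (edgeSection Γ (g • x))⁻¹ • g • x = baseEdge Γ := by
    rw [inv_smul_eq_iff, edgeSection_smul]
  rw [this]
  abel

lemma loopCycle_surjective [Γ.FiniteIndex] : Function.Surjective (loopCycle Γ) := by
  classical
  rintro ⟨c, hc⟩
  obtain ⟨hcS, hcR⟩ := (mem_cycleLattice Γ).mp hc
  obtain ⟨w, hw⟩ := exists_sub_eq_of_sq (σ := permS Γ) (fun x => S_smul_S_smul Γ x) c hcS
    (fun x hx => by
      have := hcS x; simp at hx; rw [hx] at this; omega)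
  have hinv2 : ∀ x, (permR Γ).symm x = R₃ • R₃ • x := fun x => by
    rw [Equiv.symm_apply_eq, permR_apply, R₃_smul_cube]
  have hR3' : ∀ x, (permR Γ).symm ((permR Γ).symm ((permR Γ).symm x)) = x := fun x => by
    rw [Equiv.symm_apply_eq, Equiv.symm_apply_eq, Equiv.symm_apply_eq]
    exact (R₃_smul_cube Γ x).symm
  obtain ⟨v, hv⟩ := exists_sub_eq_of_cube (σ := (permR Γ).symm) hR3' c
    (fun x => by
      have := hcR x
      rw [hinv2, hinv2, R₃_smul_cube]
      omega)
    (fun x hx => by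
      rw [Equiv.symm_apply_eq, permR_apply] at hx
      have := hcR x; rw [← hx, ← hx] at this; omega)
  have hSsymm : ∀ x, (permS Γ).symm x = (S : SL(2, ℤ)) • x := fun x => by
    rw [Equiv.symm_apply_eq, permS_apply, S_smul_S_smul]
  suffices h : (⟨c, hc⟩ : cycleLattice Γ) =
      ∑ x, w x • loopCycle Γ (Additive.ofMul (sectionConj Γ S x)) -
        ∑ x, v x • loopCycle Γ (Additive.ofMul (sectionConj Γ R₃ x)) by
    rw [← AddMonoidHom.mem_range, h]
    have hz : ∀ (n : ℤ) g, n • loopCycle Γ g ∈ (loopCycle Γ).range := fun n g =>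
      (loopCycle Γ).range.zsmul_mem (AddMonoidHom.mem_range.mpr ⟨g, rfl⟩) n
    exact (loopCycle Γ).range.sub_mem (sum_mem fun x _ => hz _ _) (sum_mem fun x _ => hz _ _)
  symm
  refine Subtype.ext ?_
  simp only [Submodule.coe_sub, Submodule.coe_sum, Submodule.coe_smul,
    loopCycle_sectionConj, pathChain_S, pathChain_R₃, zero_sub, smul_sub, smul_neg,
    Finset.sum_neg_distrib]
  set p := fun x => pathChain Γ (edgeSection Γ x) (baseEdge Γ) with hp
  have e1 : ∑ x, w x • (edgeVec Γ ((S : SL(2, ℤ)) • x) - edgeVec Γ x) = c := by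
    have h := sum_smul_sub_eq (permS Γ) w (edgeVec Γ)
    simp only [permS_apply] at h
    rw [h]
    ext z
    simp only [hSsymm, Finset.sum_apply, Pi.smul_apply, edgeVec_apply, smul_eq_mul]
    simp only [permS_apply] at hw
    simp [hw]
  have e2 : ∑ x, w x • (p ((S : SL(2, ℤ)) • x) - p x) = ∑ x, c x • p x := by
    have h := sum_smul_sub_eq (permS Γ) w p
    simp only [permS_apply] at h
    rw [h]
    refine Finset.sum_congr rfl fun x _ => ?_
    rw [hSsymm]
    simp only [permS_apply] at hw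
    rw [hw]
  have e3 : ∑ x, v x • (p (R₃ • x) - p x) = ∑ x, c x • p x := by
    have h := sum_smul_sub_eq (permR Γ) v p
    simp only [permR_apply] at h
    rw [h]
    refine Finset.sum_congr rfl fun x _ => ?_
    rw [hv]
  simp only [smul_sub, Finset.sum_sub_distrib] at e1 e2 e3 ⊢
  simp only [hp] at e2 e3
  rw [e1, e2, e3]
  abel

lemma homProj_surjective [Γ.FiniteIndex] : Function.Surjective (homProj Γ) :=
  (Submodule.mkQ_surjective _).comp (loopCycle_surjective Γ)

end Universal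

end FermatAgent.ModCurveGroup
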