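import Mathlib

/-!
# `PSL(2,ℤ)` is the free product of cyclic groups of orders 2 and 3

We prove the universal property: for any group `W` and elements `s`, `r` with `s ^ 2 = 1`,
`r ^ 3 = 1` there is a homomorphism `SL(2,ℤ) →* W` sending `S ↦ s`, `T * S ↦ r`.
-/

namespace FermatAgent.ModCurveGroup

open Matrix ModularGroup OnePoint
open scoped MatrixGroups

/-- The element `T * S` of order six. -/
def R₃ : SL(2, ℤ) := T * S

lemma coe_R₃ : (R₃ : Matrix (Fin 2) (Fin 2) ℤ) = !![1, -1; 1, 0] := by
  simp [R₃, coe_T, coe_S]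

lemma S_mul_S : (S : SL(2, ℤ)) * S = -1 := by decide

lemma R₃_pow_three : (R₃ : SL(2, ℤ)) ^ 3 = -1 := by decide

lemma T_eq_neg_R₃_mul_S : (T : SL(2, ℤ)) = -(R₃ * S) := by decide

lemma closure_S_R₃ : Subgroup.closure ({S, R₃} : Set SL(2, ℤ)) = ⊤ := by
  rw [eq_top_iff, ← SpecialLinearGroup.SL2Z_generators, Subgroup.closure_le]
  have hS : (S : SL(2, ℤ)) ∈ Subgroup.closure ({S, R₃} : Set SL(2, ℤ)) :=
    Subgroup.subset_closure (by simp)
  have hR : (R₃ : SL(2, ℤ)) ∈ Subgroup.closure ({S, R₃} : Set SL(2, ℤ)) :=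
    Subgroup.subset_closure (by simp)
  rintro x (rfl | rfl)
  · exact hS
  · have : (T : SL(2, ℤ)) = R₃ * S⁻¹ := by simp [R₃]
    rw [this]
    exact mul_mem hR (inv_mem hS)

/-- Induction principle: a property closed under products and inverses holding at `S` and `R₃`
holds everywhere. -/
lemma SL2Z_induction {P : SL(2, ℤ) → Prop} (hS : P S) (hR : P R₃) (h1 : P 1)
    (hmul : ∀ a b, P a → P b → P (a * b)) (hinv : ∀ a, P a → P a⁻¹) (g : SL(2, ℤ)) : P g := by
  have hg : g ∈ Subgroup.closure ({S, R₃} : Set SL(2, ℤ)) := by simp [closure_S_R₃]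
  induction hg using Subgroup.closure_induction with
  | mem x hx => rcases hx with rfl | rfl <;> assumption
  | one => exact h1
  | mul x y _ _ hx hy => exact hmul x y hx hy
  | inv x _ hx => exact hinv x hx

/-- The action of `SL(2,ℤ)` on `ℙ¹(ℚ)` as permutations. -/
noncomputable def projHom : SL(2, ℤ) →* Equiv.Perm (OnePoint ℚ) :=
  (MulAction.toPermHom (GL (Fin 2) ℚ) (OnePoint ℚ)).comp (Matrix.SpecialLinearGroup.mapGL ℚ)

lemma projHom_apply_coe (g : SL(2, ℤ)) (q : ℚ) :
    projHom g (q : OnePoint ℚ) = if (g 1 0 : ℚ) * q + g 1 1 = 0 then ∞ else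
      ((((g 0 0 : ℚ) * q + g 0 1) / ((g 1 0 : ℚ) * q + g 1 1) : ℚ) : OnePoint ℚ) := by
  simp [projHom, smul_some_eq_ite]

lemma projHom_apply_infty (g : SL(2, ℤ)) :
    projHom g (∞ : OnePoint ℚ) = if (g 1 0 : ℚ) = 0 then ∞ else
      ((((g 0 0 : ℚ)) / (g 1 0 : ℚ) : ℚ) : OnePoint ℚ) := by
  simp [projHom, smul_infty_eq_ite]

lemma projHom_neg_one : projHom (-1) = 1 := by
  ext x
  induction x using OnePoint.rec with
  | infty => simp [projHom_apply_infty]
  | coe q => simp [projHom_apply_coe]

lemma projHom_S_sq : projHom S ^ 2 = 1 := by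
  rw [← map_pow, pow_two, S_mul_S, projHom_neg_one]

lemma projHom_R₃_cube : projHom R₃ ^ 3 = 1 := by
  rw [← map_pow, R₃_pow_three, projHom_neg_one]

/-- The orders of the two factors. -/
def factorOrder : Bool → ℕ := fun b => if b then 3 else 2

/-- The two factors. -/
abbrev Factor (b : Bool) : Type := Multiplicative (ZMod (factorOrder b))

/-- Homomorphism out of a cyclic group. -/
noncomputable def cyclicHom {W : Type*} [Group W] (n : ℕ) (w : W) (hw : w ^ n = 1) :
    Multiplicative (ZMod n) →* W :=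
  AddMonoidHom.toMultiplicativeLeft (ZMod.lift n ⟨zmultiplesHom (Additive W) (Additive.ofMul w), by
    simp [← ofMul_pow, hw]⟩)

lemma cyclicHom_one {W : Type*} [Group W] (n : ℕ) (w : W) (hw : w ^ n = 1) :
    cyclicHom n w hw (Multiplicative.ofAdd 1) = w := by
  unfold cyclicHom
  simp only [AddMonoidHom.toMultiplicativeLeft_apply_apply, toAdd_ofAdd]
  rw [show (1 : ZMod n) = ((1 : ℤ) : ZMod n) by simp, ZMod.lift_coe]
  simp

/-- A pair of elements indexed by the factors. -/
def pairFamily {W : Type*} [Group W] (s r : W) (b : Bool) : W := if b then r else s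

lemma pairFamily_pow {W : Type*} [Group W] {s r : W} (hs : s ^ 2 = 1) (hr : r ^ 3 = 1) (b : Bool) :
    pairFamily s r b ^ factorOrder b = 1 := by
  cases b <;> simpa [pairFamily, factorOrder]

/-- The family of homomorphisms given by a pair. -/
noncomputable def pairHom {W : Type*} [Group W] {s r : W} (hs : s ^ 2 = 1) (hr : r ^ 3 = 1)
    (b : Bool) : Factor b →* W :=
  cyclicHom (factorOrder b) (pairFamily s r b) (pairFamily_pow hs hr b)

/-- The free product maps to permutations of `ℙ¹(ℚ)`. -/
noncomputable def freeToPerm : Monoid.CoprodI Factor →* Equiv.Perm (OnePoint ℚ) :=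
  Monoid.CoprodI.lift (pairHom projHom_S_sq projHom_R₃_cube)

/-- The sets used for ping-pong. -/
def pingSet (b : Bool) : Set (OnePoint ℚ) :=
  if b then {x | ∃ q : ℚ, x = q ∧ 0 < q} else {x | ∃ q : ℚ, x = q ∧ q < 0}

lemma freeToPerm_injective : Function.Injective freeToPerm := by
  refine Monoid.CoprodI.lift_injective_of_ping_pong _ ?_ pingSet ?_ ?_ ?_
  · right
    refine ⟨true, ?_⟩
    simp [Cardinal.mk_fintype, factorOrder]
  · intro b
    cases b
    · exact ⟨((-1 : ℚ) : OnePoint ℚ), ⟨-1, rfl, by norm_num⟩⟩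
    · exact ⟨((1 : ℚ) : OnePoint ℚ), ⟨1, rfl, by norm_num⟩⟩
  · intro a b hab
    rw [Function.onFun, Set.disjoint_left]
    cases a <;> cases b <;> simp_all [pingSet] <;> grind
  · intro a b hab h hh
    rintro _ ⟨x, hx, rfl⟩
    show (pairHom projHom_S_sq projHom_R₃_cube a h) x ∈ pingSet a
    cases a
    · obtain rfl : b = true := by cases b <;> simp_all
      obtain ⟨q, rfl, hq⟩ := hx
      have hh' : h = Multiplicative.ofAdd (1 : ZMod (factorOrder false)) := by
        have key : ∀ a : ZMod 2, a ≠ 0 → a = 1 := by decide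
        exact congrArg Multiplicative.ofAdd (key (Multiplicative.toAdd h) hh)
      subst hh'
      rw [pairHom, cyclicHom_one]
      refine ⟨-1 / q, ?_, div_neg_of_neg_of_pos (by norm_num) hq⟩
      show projHom S (q : OnePoint ℚ) = _
      rw [projHom_apply_coe]
      simp [hq.ne']
    · obtain rfl : b = false := by cases b <;> simp_all
      obtain ⟨q, rfl, hq⟩ := hx
      have hq0 : q ≠ 0 := hq.ne
      have h1 : projHom R₃ (q : OnePoint ℚ) = (((q - 1) / q : ℚ) : OnePoint ℚ) := by
        rw [projHom_apply_coe]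
        simp [coe_R₃, hq0, sub_eq_add_neg]
      have p1 : 0 < (q - 1) / q := div_pos_of_neg_of_neg (by linarith) hq
      have hcases : h = Multiplicative.ofAdd (1 : ZMod (factorOrder true)) ∨
          h = Multiplicative.ofAdd (1 : ZMod (factorOrder true)) ^ 2 := by
        have key : ∀ a : ZMod 3, a ≠ 0 → a = 1 ∨ a = 1 + 1 := by decide
        refine (key (Multiplicative.toAdd h) hh).imp (congrArg Multiplicative.ofAdd) fun e => ?_
        rw [pow_two, ← ofAdd_add]
        exact congrArg Multiplicative.ofAdd e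
      rcases hcases with rfl | rfl
      · rw [pairHom, cyclicHom_one]
        exact ⟨_, h1, p1⟩
      · rw [map_pow, pairHom, cyclicHom_one]
        refine ⟨((q - 1) / q - 1) / ((q - 1) / q), ?_, ?_⟩
        · show (projHom R₃ ^ 2) (q : OnePoint ℚ) = _
          rw [pow_two, Equiv.Perm.mul_apply, h1, projHom_apply_coe]
          generalize (q - 1) / q = y at p1 ⊢
          simp [coe_R₃, p1.ne', sub_eq_add_neg]
        · apply div_pos _ p1
          rw [sub_div, div_self hq0]
          have : 1 / q < 0 := div_neg_of_pos_of_neg one_pos hq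
          linarith

lemma projHom_mem_range (g : SL(2, ℤ)) : projHom g ∈ freeToPerm.range := by
  refine SL2Z_induction (P := fun g => projHom g ∈ freeToPerm.range) ?_ ?_ ?_ ?_ ?_ g
  · refine ⟨Monoid.CoprodI.of (i := false) (Multiplicative.ofAdd 1), ?_⟩
    rw [freeToPerm, Monoid.CoprodI.lift_of, pairHom, cyclicHom_one]; rfl
  · refine ⟨Monoid.CoprodI.of (i := true) (Multiplicative.ofAdd 1), ?_⟩
    rw [freeToPerm, Monoid.CoprodI.lift_of, pairHom, cyclicHom_one]; rfl
  · simp
  · intro a b ha hb; rw [map_mul]; exact mul_mem ha hb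
  · intro a ha; rw [map_inv]; exact inv_mem ha

/-- The map from `SL(2,ℤ)` to the free product `C₂ * C₃`. -/
noncomputable def toFree : SL(2, ℤ) →* Monoid.CoprodI Factor :=
  (MonoidHom.ofInjective freeToPerm_injective).symm.toMonoidHom.comp
    (projHom.codRestrict freeToPerm.range projHom_mem_range)

lemma freeToPerm_toFree (g : SL(2, ℤ)) : freeToPerm (toFree g) = projHom g := by
  simp [toFree]

/-- Universal property of `PSL(2,ℤ) = C₂ * C₃`. -/
theorem exists_hom_of_pow_eq_one {W : Type*} [Group W] (s r : W) (hs : s ^ 2 = 1)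
    (hr : r ^ 3 = 1) : ∃ F : SL(2, ℤ) →* W, F S = s ∧ F R₃ = r ∧ F (-1) = 1 := by
  refine ⟨(Monoid.CoprodI.lift (pairHom hs hr)).comp toFree, ?_, ?_, ?_⟩
  · have : toFree S = Monoid.CoprodI.of (i := false) (Multiplicative.ofAdd 1) := by
      apply freeToPerm_injective
      rw [freeToPerm_toFree, freeToPerm, Monoid.CoprodI.lift_of, pairHom, cyclicHom_one]; rfl
    simp [this, pairHom, cyclicHom_one, pairFamily]
  · have : toFree R₃ = Monoid.CoprodI.of (i := true) (Multiplicative.ofAdd 1) := by
      apply freeToPerm_injective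
      rw [freeToPerm_toFree, freeToPerm, Monoid.CoprodI.lift_of, pairHom, cyclicHom_one]; rfl
    simp [this, pairHom, cyclicHom_one, pairFamily]
  · have : toFree (-1) = 1 := by
      apply freeToPerm_injective
      rw [freeToPerm_toFree, projHom_neg_one, map_one]
    simp [this]

end FermatAgent.ModCurveGroup
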